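import Mathlib
import Fermat.Agent.MU.S36.Ig.EpsGen

section MergeWrap_S48_W_Hecke -- from S48/W/Hecke.lean

set_option autoImplicit false

noncomputable section

namespace Fermat.Agent.S48W

open ModularCurve AlgebraicCurve PowerSeries HahnSeries IntermediateField

local notation "Kb" => AlgebraicClosure ℚ
local notation "GK" => (AlgebraicClosure ℚ ≃ₐ[ℚ] AlgebraicClosure ℚ)

section Generic

variable (L : Type*) [Field L] [Algebra ℚ L]

theorem coeffMap_qExpand_w {R S : Type*} [CommRing R] [CommRing S] (f : R →+* S) (n : ℕ)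
    [NeZero n] (x : LaurentSeries R) : coeffMap f (qExpand R n x) = qExpand S n (coeffMap f x) := by
  ext k
  by_cases hk : (n : ℤ) ∣ k
  · obtain ⟨m, rfl⟩ := hk
    rw [coeffMap_coeff, qExpand_coeff_mul, qExpand_coeff_mul, coeffMap_coeff]
  · rw [coeffMap_coeff, qExpand_coeff_of_not_dvd n _ hk, qExpand_coeff_of_not_dvd n _ hk,
      map_zero]

theorem coeffEmb_qExpand_w (n : ℕ) [NeZero n] (x : LaurentSeries ℚ) :
    coeffEmb L (qExpand ℚ n x) = qExpand L n (coeffEmb L x) :=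
  coeffMap_qExpand_w _ n x

theorem laurentBaseChange_mono_w {F₀ F₁ : IntermediateField ℚ (LaurentSeries ℚ)}
    (h : F₀ ≤ F₁) : laurentBaseChange L F₀ ≤ laurentBaseChange L F₁ := by
  rw [laurentBaseChange, IntermediateField.adjoin_le_iff]
  rintro _ ⟨y, hy, rfl⟩
  exact coeffEmb_mem_laurentBaseChange L (h hy)

variable {L} in
theorem qExpand_mem_laurentBaseChange_w {F₀ : IntermediateField ℚ (LaurentSeries ℚ)} (n : ℕ)
    [NeZero n] {F₁ : IntermediateField ℚ (LaurentSeries ℚ)} (hF : ∀ y ∈ F₀, qExpand ℚ n y ∈ F₁)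
    {x : LaurentSeries L} (hx : x ∈ laurentBaseChange L F₀) :
    qExpand L n x ∈ laurentBaseChange L F₁ := by
  rw [mem_laurentBaseChange_iff] at hx
  induction hx using Subfield.closure_induction with
  | mem y hy =>
      rcases hy with ⟨a, rfl⟩ | ⟨z, hz, rfl⟩
      · rw [algebraMap_laurentSeries_eq_single, qExpand_single, mul_zero,
          ← algebraMap_laurentSeries_eq_single]
        exact (laurentBaseChange L F₁).algebraMap_mem _
      · rw [← coeffEmb_qExpand_w]
        exact coeffEmb_mem_laurentBaseChange L (hF z hz)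
  | one => simp
  | add x y _ _ hx hy => simpa using add_mem hx hy
  | neg x _ hx => simpa using neg_mem hx
  | inv x _ hx => simpa using inv_mem hx
  | mul x y _ _ hx hy => simpa using mul_mem hx hy

variable {F₀ F₁ : IntermediateField ℚ (LaurentSeries ℚ)}

/-- `α`: the inclusion `L F₀ ⊆ L F₁`. -/
def qSeriesAlpha (h : F₀ ≤ F₁) : laurentBaseChange L F₀ →ₐ[L] laurentBaseChange L F₁ :=
  IntermediateField.inclusion (laurentBaseChange_mono_w L h)

@[simp]
theorem coe_qSeriesAlpha (h : F₀ ≤ F₁) (x : laurentBaseChange L F₀) :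
    (qSeriesAlpha L h x : LaurentSeries L) = (x : LaurentSeries L) :=
  IntermediateField.coe_inclusion _ x

/-- `β`: `q ↦ q^p`, as a ring homomorphism. -/
def qSeriesBetaRingHom (p : ℕ) [NeZero p] (hF : ∀ y ∈ F₀, qExpand ℚ p y ∈ F₁) :
    laurentBaseChange L F₀ →+* laurentBaseChange L F₁ where
  toFun x := ⟨qExpand L p (x : LaurentSeries L), qExpand_mem_laurentBaseChange_w p hF x.2⟩
  map_one' := Subtype.ext (map_one (qExpand L p))
  map_mul' _ _ := Subtype.ext (map_mul (qExpand L p) _ _)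
  map_zero' := Subtype.ext (map_zero (qExpand L p))
  map_add' _ _ := Subtype.ext (map_add (qExpand L p) _ _)

/-- `β`: `q ↦ q^p`. -/
def qSeriesBeta (p : ℕ) [NeZero p] (hF : ∀ y ∈ F₀, qExpand ℚ p y ∈ F₁) :
    laurentBaseChange L F₀ →ₐ[L] laurentBaseChange L F₁ :=
  { qSeriesBetaRingHom L p hF with
    commutes' := fun a => Subtype.ext <| by
      show qExpand L p (algebraMap L (LaurentSeries L) a) = algebraMap L (LaurentSeries L) a
      rw [algebraMap_laurentSeries_eq_single, qExpand_single, mul_zero] }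

@[simp]
theorem coe_qSeriesBeta (p : ℕ) [NeZero p] (hF : ∀ y ∈ F₀, qExpand ℚ p y ∈ F₁)
    (x : laurentBaseChange L F₀) :
    (qSeriesBeta L p hF x : LaurentSeries L) = qExpand L p (x : LaurentSeries L) :=
  rfl

/-- the inputs of the norm correspondence `(β, α)` (as `HeckeInputsAlong` in the Prelude). -/
def QSeriesInputs (h : F₀ ≤ F₁) (p : ℕ) [NeZero p] (hF : ∀ y ∈ F₀, qExpand ℚ p y ∈ F₁) : Prop :=
  ∃ (_ : (qSeriesAlpha L h).toRingHom.IsIntegral)
    (hβ : (qSeriesBeta L p hF).toRingHom.IsIntegral)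
    (_ : HasPrincipalDivisors L (laurentBaseChange L F₁))
    (hfin : FiniteAlong L (qSeriesAlpha L h)),
    FundamentalIdentityAlong L (qSeriesBeta L p hF) hβ ∧
      NormFormulaAlong L (qSeriesAlpha L h) hfin

open Classical in
/-- the operator `α_* β^*` on `Pic⁰ (L F₀)` (`0` if the inputs fail). -/
def qSeriesHecke (h : F₀ ≤ F₁) (p : ℕ) [NeZero p] (hF : ∀ y ∈ F₀, qExpand ℚ p y ∈ F₁) :
    Pic0 L (laurentBaseChange L F₀) →+ Pic0 L (laurentBaseChange L F₀) :=
  if hI : QSeriesInputs L h p hF then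
    haveI := hI.snd.snd.fst
    Pic0.correspondence (qSeriesBeta L p hF) (qSeriesAlpha L h) hI.snd.fst hI.fst
      hI.snd.snd.snd.snd.1 hI.snd.snd.snd.fst hI.snd.snd.snd.snd.2
  else 0

end Generic

/-! ### `T_p` on `J₁(M)` -/

/-- the inputs of `T_p` at level `Γ₁(M)`. -/
def HeckeInputsOne (M p : ℕ) [NeZero M] [NeZero p] : Prop :=
  QSeriesInputs Kb (FOne_le_FOneP M p) p (fun _ hy => qExpand_mem_FOneP M p hy)

/-- **`T_p` on `J₁(M)(ℚ̄)`**. -/
def heckeOne (M : ℕ) [NeZero M] (p : Nat.Primes) : Module.End ℤ (JOne M) :=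
  haveI : NeZero (p : ℕ) := ⟨p.2.ne_zero⟩
  (qSeriesHecke Kb (FOne_le_FOneP M p) p (fun _ hy => qExpand_mem_FOneP M p hy)).toIntLinearMap

/-! ### diamond operators -/

/-- `σ` is the diamond automorphism `⟨d⟩`: it fixes `j(q^e)` (`e ∣ M`) and maps the Fricke
function of `a` to the Fricke function of `d • a`. -/
def IsDiamond (M : ℕ) [NeZero M] (d : (ZMod M)ˣ) (σ : FOneBar M ≃ₐ[Kb] FOneBar M) : Prop :=
  (∀ x ∈ divisorExpansions M, ∀ hx : coeffEmb Kb x ∈ FOneBar M,
      σ ⟨coeffEmb Kb x, hx⟩ = ⟨coeffEmb Kb x, hx⟩) ∧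
    ∀ a : ZMod M, a ≠ 0 → ∀ (h₁ : coeffEmb Kb (fricke M a) ∈ FOneBar M)
      (h₂ : coeffEmb Kb (fricke M ((d : ZMod M) * a)) ∈ FOneBar M),
      σ ⟨coeffEmb Kb (fricke M a), h₁⟩ = ⟨coeffEmb Kb (fricke M ((d : ZMod M) * a)), h₂⟩

open Classical in
/-- **the diamond operator `⟨d⟩` on `J₁(M)(ℚ̄)`** (`0` if the automorphism does not exist; seat H
proves that it exists). -/
def diamondOne (M : ℕ) [NeZero M] (d : (ZMod M)ˣ) : Module.End ℤ (JOne M) :=
  if h : ∃ σ : FOneBar M ≃ₐ[Kb] FOneBar M, IsDiamond M d σ then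
    (DistribSMul.toAddMonoidHom (JOne M) h.choose).toIntLinearMap
  else 0

/-- `T_p` restricted to the `n`-torsion. -/
def heckeTorsOne (M n : ℕ) [NeZero M] (p : Nat.Primes) : JtorsOne M n →ₗ[ℤ] JtorsOne M n :=
  (heckeOne M p).restrict (by
    intro x hx
    rw [Submodule.mem_torsionBy_iff] at hx ⊢
    rw [← map_smul, hx, map_zero])

/-- `⟨d⟩` restricted to the `n`-torsion. -/
def diamondTorsOne (M n : ℕ) [NeZero M] (d : (ZMod M)ˣ) : JtorsOne M n →ₗ[ℤ] JtorsOne M n :=
  (diamondOne M d).restrict (by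
    intro x hx
    rw [Submodule.mem_torsionBy_iff] at hx ⊢
    rw [← map_smul, hx, map_zero])

end Fermat.Agent.S48W
end
end MergeWrap_S48_W_Hecke
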