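import Mathlib
import Fermat.Agent.MU.F3.FrobDensityLiteFinal
import Fermat.Agent.MU.S48.W.R.AsmAt
import Fermat.Agent.S48.Bnd.Rep
import Fermat.Agent.MU.S48.W.P.Product
import Fermat.Agent.MU.S48.W.G.Port.Defs
import Fermat.Agent.MU.S48.W.G.Red.Int
import Fermat.Agent.Lib.GaussInt.Unramified
import Fermat.Agent.Lib.GaussInt.ValGroup
import Fermat.Agent.F3.Galois.TorsionReduce
import Fermat.Agent.MU.Lib.IgusaDeg.JInput
import Fermat.Agent.MU.S48.W.G.Red.Defs
import Fermat.Agent.MU.S48.W.G.Red.Res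
import Fermat.Agent.Lib.GaussInt.FrobFormal
import Fermat.Agent.MU.S48.W.G.Port.Diam
import Fermat.Agent.MU.S48.W.P.Main
import Fermat.Agent.MU.S48.Eis1.Final
import Fermat.Agent.MU.S48.W.G.Red.Igusa.LeafDefs
import Fermat.Agent.MU.S48.W.H.Top

section MergeWrap_S48_W_G_P23_Glue_Unip -- from S48/W/G/P23/Glue/Unip.lean

set_option autoImplicit false

namespace Fermat.Agent.S48WGlue

open Matrix

variable {k : Type*} [Field k]

/-- nilpotent `2 × 2` matrices `m, n` with `tr (m n) = 0` have product `0`. -/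
theorem glue_nil_mul_nil (m n : Matrix (Fin 2) (Fin 2) k)
    (hm1 : m.trace = 0) (hm2 : m.det = 0) (hn1 : n.trace = 0) (hn2 : n.det = 0)
    (hmn : (m * n).trace = 0) : m * n = 0 := by
  rw [Matrix.trace_fin_two] at hm1 hn1 hmn
  rw [Matrix.det_fin_two] at hm2 hn2
  simp only [Matrix.mul_apply, Fin.sum_univ_two] at hmn
  have hd : m 1 1 = - m 0 0 := by linear_combination hm1
  have hs : n 1 1 = - n 0 0 := by linear_combination hn1
  rw [hd] at hm2 hmn
  rw [hs] at hn2 hmn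
  have h00 : (m 0 0 * n 0 0 + m 0 1 * n 1 0) ^ 2 = 0 := by
    linear_combination (m 0 1 * n 1 0) * hmn - (n 0 0 * n 0 0) * hm2 + (m 0 1 * m 1 0) * hn2
  have h01 : (m 0 0 * n 0 1 + m 0 1 * (- n 0 0)) ^ 2 = 0 := by
    linear_combination (-(m 0 1 * n 0 1)) * hmn - (n 0 1 * n 0 1) * hm2 - (m 0 1 * m 0 1) * hn2
  have h10 : (m 1 0 * n 0 0 + (- m 0 0) * n 1 0) ^ 2 = 0 := by
    linear_combination (-(m 1 0 * n 1 0)) * hmn - (m 1 0 * m 1 0) * hn2 - (n 1 0 * n 1 0) * hm2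
  have h11 : (m 1 0 * n 0 1 + (- m 0 0) * (- n 0 0)) ^ 2 = 0 := by
    linear_combination (m 1 0 * n 0 1) * hmn - (n 0 0 * n 0 0) * hm2 + (m 0 1 * m 1 0) * hn2
  have e00 := pow_eq_zero_iff (two_ne_zero) |>.mp h00
  have e01 := pow_eq_zero_iff (two_ne_zero) |>.mp h01
  have e10 := pow_eq_zero_iff (two_ne_zero) |>.mp h10
  have e11 := pow_eq_zero_iff (two_ne_zero) |>.mp h11
  ext i j
  fin_cases i <;> fin_cases j
  · simpa [Matrix.mul_apply, Fin.sum_univ_two] using e00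
  · simpa [Matrix.mul_apply, Fin.sum_univ_two, hs] using e01
  · simpa [Matrix.mul_apply, Fin.sum_univ_two, hd] using e10
  · simpa [Matrix.mul_apply, Fin.sum_univ_two, hd, hs] using e11

/-- `u` unipotent (`tr = 2`, `det = 1`) ⟹ `u - 1` has trace and determinant `0`. -/
theorem glue_unip_sub_one (u : Matrix (Fin 2) (Fin 2) k) (h1 : u.trace = 2) (h2 : u.det = 1) :
    (u - 1).trace = 0 ∧ (u - 1).det = 0 := by
  rw [Matrix.trace_fin_two] at h1 ⊢
  rw [Matrix.det_fin_two] at h2 ⊢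
  simp only [Matrix.sub_apply, Matrix.one_apply_eq, Matrix.one_apply_ne, ne_eq, zero_ne_one,
    not_false_eq_true, one_ne_zero, sub_zero, Fin.isValue]
  constructor
  · linear_combination h1
  · linear_combination h2 - h1

/-- unipotent `u, h` with `tr (u h) = 2`: `(u - 1) (h - 1) = 0`. -/
theorem glue_unip_mul (u h : Matrix (Fin 2) (Fin 2) k) (hu1 : u.trace = 2) (hu2 : u.det = 1)
    (hh1 : h.trace = 2) (hh2 : h.det = 1) (huh : (u * h).trace = 2) :
    (u - 1) * (h - 1) = 0 := by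
  obtain ⟨a1, a2⟩ := glue_unip_sub_one u hu1 hu2
  obtain ⟨b1, b2⟩ := glue_unip_sub_one h hh1 hh2
  refine glue_nil_mul_nil _ _ a1 a2 b1 b2 ?_
  have e : (u - 1) * (h - 1) = u * h - u - h + 1 := by
    rw [sub_mul, mul_sub, mul_sub, mul_one, one_mul, one_mul]
    abel
  rw [e, Matrix.trace_add, Matrix.trace_sub, Matrix.trace_sub, huh, hu1, hh1, Matrix.trace_one,
    Fintype.card_fin]
  norm_num

/-- the kernel of a nonzero `2 × 2` matrix killing `v ≠ 0` is the line `k v`. -/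
theorem glue_ker_line (n : Matrix (Fin 2) (Fin 2) k) (hn : n ≠ 0) (v x : Fin 2 → k)
    (hv0 : v ≠ 0) (hv : n *ᵥ v = 0) (hx : n *ᵥ x = 0) : ∃ c : k, x = c • v := by
  -- the determinant of `[v | x]` vanishes
  have hdet : v 0 * x 1 - v 1 * x 0 = 0 := by
    by_contra hne
    apply hn
    have hv0' := congrFun hv 0
    have hv1' := congrFun hv 1
    have hx0' := congrFun hx 0
    have hx1' := congrFun hx 1
    simp only [Matrix.mulVec, dotProduct, Fin.sum_univ_two, Pi.zero_apply] at hv0' hv1' hx0' hx1'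
    have e00 : n 0 0 * (v 0 * x 1 - v 1 * x 0) = 0 := by
      linear_combination x 1 * hv0' - v 1 * hx0'
    have e01 : n 0 1 * (v 0 * x 1 - v 1 * x 0) = 0 := by
      linear_combination v 0 * hx0' - x 0 * hv0'
    have e10 : n 1 0 * (v 0 * x 1 - v 1 * x 0) = 0 := by
      linear_combination x 1 * hv1' - v 1 * hx1'
    have e11 : n 1 1 * (v 0 * x 1 - v 1 * x 0) = 0 := by
      linear_combination v 0 * hx1' - x 0 * hv1'
    ext i j
    fin_cases i <;> fin_cases j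
    · exact (mul_eq_zero.mp e00).resolve_right hne
    · exact (mul_eq_zero.mp e01).resolve_right hne
    · exact (mul_eq_zero.mp e10).resolve_right hne
    · exact (mul_eq_zero.mp e11).resolve_right hne
  by_cases h0 : v 0 = 0
  · have h1 : v 1 ≠ 0 := by
      intro h1
      apply hv0
      ext i
      fin_cases i
      · exact h0
      · exact h1
    refine ⟨x 1 / v 1, ?_⟩
    ext i
    fin_cases i
    · simp only [Fin.zero_eta, Fin.isValue, Pi.smul_apply, smul_eq_mul]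
      rw [h0, mul_zero]
      rw [h0, zero_mul, zero_sub, neg_eq_zero] at hdet
      exact (mul_eq_zero.mp hdet).resolve_left h1
    · simp only [Fin.mk_one, Fin.isValue, Pi.smul_apply, smul_eq_mul]
      field_simp
  · refine ⟨x 0 / v 0, ?_⟩
    ext i
    fin_cases i
    · simp only [Fin.zero_eta, Fin.isValue, Pi.smul_apply, smul_eq_mul]
      field_simp
    · simp only [Fin.mk_one, Fin.isValue, Pi.smul_apply, smul_eq_mul]
      field_simp
      linear_combination hdet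

/-- an eigenvalue of a `2 × 2` matrix is a root of `X² - tr X + det`. -/
theorem glue_eigen_quadratic (g : Matrix (Fin 2) (Fin 2) k) (v : Fin 2 → k) (hv0 : v ≠ 0)
    (α : k) (hv : g *ᵥ v = α • v) : α ^ 2 - g.trace * α + g.det = 0 := by
  rw [Matrix.trace_fin_two, Matrix.det_fin_two]
  have h0 := congrFun hv 0
  have h1 := congrFun hv 1
  simp only [Matrix.mulVec, dotProduct, Fin.sum_univ_two, Pi.smul_apply, smul_eq_mul] at h0 h1
  by_cases hz : v 0 = 0
  · have h1' : v 1 ≠ 0 := by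
      intro h1'
      apply hv0
      ext i
      fin_cases i
      · exact hz
      · exact h1'
    rw [hz, mul_zero, zero_add, mul_zero] at h0
    rw [hz, mul_zero, zero_add] at h1
    have e1 : g 0 1 = 0 := (mul_eq_zero.mp h0).resolve_right h1'
    have e2 : g 1 1 = α := mul_right_cancel₀ h1' h1
    rw [e1, e2]
    ring
  · have key : (α ^ 2 - (g 0 0 + g 1 1) * α + (g 0 0 * g 1 1 - g 0 1 * g 1 0)) * v 0 = 0 := by
      linear_combination (g 1 1 - α) * h0 - g 0 1 * h1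
    exact (mul_eq_zero.mp key).resolve_right hz

/-- Cayley-Hamilton for `2 × 2` matrices. -/
theorem glue_cayley (g : Matrix (Fin 2) (Fin 2) k) :
    g * g = g.trace • g - g.det • (1 : Matrix (Fin 2) (Fin 2) k) := by
  rw [Matrix.trace_fin_two, Matrix.det_fin_two]
  ext i j
  fin_cases i <;> fin_cases j <;>
    simp [Matrix.mul_apply, Fin.sum_univ_two] <;> ring

/-- the traces of the powers satisfy the Newton recursion. -/
theorem glue_trace_pow_succ_succ (g : Matrix (Fin 2) (Fin 2) k) (j : ℕ) :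
    (g ^ (j + 2)).trace = g.trace * (g ^ (j + 1)).trace - g.det * (g ^ j).trace := by
  have e : g ^ (j + 2) = g.trace • g ^ (j + 1) - g.det • g ^ j := by
    rw [pow_succ, pow_succ, mul_assoc, glue_cayley g, mul_sub, Matrix.mul_smul, Matrix.mul_smul,
      mul_one, ← pow_succ]
  rw [e, Matrix.trace_sub, Matrix.trace_smul, Matrix.trace_smul, smul_eq_mul, smul_eq_mul]

/-- trace and determinant of the powers are determined by trace and determinant. -/
theorem glue_trace_det_pow (g g' : Matrix (Fin 2) (Fin 2) k) (ht : g.trace = g'.trace)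
    (hd : g.det = g'.det) (j : ℕ) :
    (g ^ j).trace = (g' ^ j).trace ∧ (g ^ j).det = (g' ^ j).det := by
  refine ⟨?_, by rw [Matrix.det_pow, Matrix.det_pow, hd]⟩
  induction j using Nat.strong_induction_on with
  | _ j ih =>
    match j, ih with
    | 0, _ => simp
    | 1, _ => simpa using ht
    | (j + 2), ih =>
      rw [glue_trace_pow_succ_succ, glue_trace_pow_succ_succ, ih (j + 1) (by omega),
        ih j (by omega), ht, hd]

end Fermat.Agent.S48WGlue
end MergeWrap_S48_W_G_P23_Glue_Unip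

section MergeWrap_S48_W_G_P23_Glue_Split -- from S48/W/G/P23/Glue/Split.lean

set_option autoImplicit false

namespace Fermat.Agent.S48WGlue

open Matrix

variable {k : Type*} [Field k] {G : Type*} [Group G]

/-- the diagonal homomorphism `(a, b) : G →* GL₂(k)`. -/
noncomputable def glueDiag (a b : G →* kˣ) : G →* GL (Fin 2) k :=
  (Units.map ((Matrix.diagonalRingHom (Fin 2) k : (Fin 2 → k) →+* Matrix (Fin 2) (Fin 2) k) :
      (Fin 2 → k) →* Matrix (Fin 2) (Fin 2) k)).comp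
    ((MulEquiv.piUnits (M := fun _ : Fin 2 => k)).symm.toMonoidHom.comp
      (MonoidHom.pi (fun i : Fin 2 => if i = 0 then a else b)))

theorem coe_glueDiag (a b : G →* kˣ) (σ : G) :
    ((glueDiag a b σ : GL (Fin 2) k) : Matrix (Fin 2) (Fin 2) k)
      = Matrix.diagonal (fun i : Fin 2 => if i = 0 then (a σ : k) else (b σ : k)) := by
  show Matrix.diagonal _ = _
  congr 1
  ext i
  fin_cases i <;> rfl

theorem trace_glueDiag (a b : G →* kˣ) (σ : G) :
    ((glueDiag a b σ : GL (Fin 2) k) : Matrix (Fin 2) (Fin 2) k).trace = (a σ : k) + (b σ : k) := by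
  rw [coe_glueDiag, Matrix.trace_fin_two]
  simp

theorem det_glueDiag (a b : G →* kˣ) (σ : G) :
    ((glueDiag a b σ : GL (Fin 2) k) : Matrix (Fin 2) (Fin 2) k).det = (a σ : k) * (b σ : k) := by
  rw [coe_glueDiag, Matrix.det_fin_two]
  simp

theorem glueDiag_eq_one (a b : G →* kˣ) (σ : G) (ha : a σ = 1) (hb : b σ = 1) :
    glueDiag a b σ = 1 := by
  apply Units.ext
  rw [coe_glueDiag, ha, hb]
  ext i j
  fin_cases i <;> fin_cases j <;> simp

/-- a nonzero matrix moves some vector. -/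
theorem glue_exists_mulVec_ne (n : Matrix (Fin 2) (Fin 2) k) (hn : n ≠ 0) :
    ∃ w : Fin 2 → k, n *ᵥ w ≠ 0 := by
  by_contra h
  push Not at h
  apply hn
  ext i j
  have := congrFun (h (Pi.single j 1)) i
  rw [Matrix.mulVec_single_one] at this
  simpa using this

/-- **algebraic gluing**. -/
theorem glue_split (r r' : G →* GL (Fin 2) k)
    (ht : ∀ σ, ((r σ : GL (Fin 2) k) : Matrix (Fin 2) (Fin 2) k).trace
      = ((r' σ : GL (Fin 2) k) : Matrix (Fin 2) (Fin 2) k).trace)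
    (hd : ∀ σ, ((r σ : GL (Fin 2) k) : Matrix (Fin 2) (Fin 2) k).det
      = ((r' σ : GL (Fin 2) k) : Matrix (Fin 2) (Fin 2) k).det) :
    ∃ r'' : G →* GL (Fin 2) k,
      (∀ σ, ((r'' σ : GL (Fin 2) k) : Matrix (Fin 2) (Fin 2) k).trace
        = ((r σ : GL (Fin 2) k) : Matrix (Fin 2) (Fin 2) k).trace) ∧
      (∀ σ, ((r'' σ : GL (Fin 2) k) : Matrix (Fin 2) (Fin 2) k).det
        = ((r σ : GL (Fin 2) k) : Matrix (Fin 2) (Fin 2) k).det) ∧
      (∀ σ, r σ = 1 → r'' σ = 1) ∧ (∀ σ, r' σ = 1 → r'' σ = 1) := by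
  classical
  by_cases hA : ∀ σ, r' σ = 1 → r σ = 1
  · exact ⟨r, fun _ => rfl, fun _ => rfl, fun _ h => h, hA⟩
  push Not at hA
  obtain ⟨σ₀, hσ₀, hne⟩ := hA
  -- unipotence on `ker r'`
  have hun : ∀ σ, r' σ = 1 → ((r σ : GL (Fin 2) k) : Matrix (Fin 2) (Fin 2) k).trace = 2 ∧
      ((r σ : GL (Fin 2) k) : Matrix (Fin 2) (Fin 2) k).det = 1 := by
    intro σ hσ
    rw [ht, hd, hσ]
    simp [Matrix.trace_one]
  have hmulK : ∀ σ τ, r' σ = 1 → r' τ = 1 → r' (σ * τ) = 1 := by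
    intro σ τ h1 h2
    rw [map_mul, h1, h2, one_mul]
  have hconjK : ∀ γ σ, r' σ = 1 → r' (γ⁻¹ * σ * γ) = 1 := by
    intro γ σ h1
    rw [map_mul, map_mul, h1, mul_one, ← map_mul, inv_mul_cancel, map_one]
  set h₀ : Matrix (Fin 2) (Fin 2) k := ((r σ₀ : GL (Fin 2) k) : Matrix (Fin 2) (Fin 2) k) with hh₀
  have hn0 : h₀ - 1 ≠ 0 := by
    intro h
    apply hne
    apply Units.ext
    rw [Units.val_one]
    exact sub_eq_zero.mp h
  -- the key: `(r σ - 1) (h₀ - 1) = 0` for `σ ∈ ker r'`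
  have hkey : ∀ σ, r' σ = 1 →
      (((r σ : GL (Fin 2) k) : Matrix (Fin 2) (Fin 2) k) - 1) * (h₀ - 1) = 0 := by
    intro σ hσ
    refine glue_unip_mul _ _ (hun σ hσ).1 (hun σ hσ).2 (hun σ₀ hσ₀).1 (hun σ₀ hσ₀).2 ?_
    have := (hun (σ * σ₀) (hmulK σ σ₀ hσ hσ₀)).1
    rwa [map_mul, Units.val_mul] at this
  obtain ⟨w, hw⟩ := glue_exists_mulVec_ne (h₀ - 1) hn0
  set v₀ : Fin 2 → k := (h₀ - 1) *ᵥ w with hv₀
  have hfix : ∀ σ, r' σ = 1 →
      ((r σ : GL (Fin 2) k) : Matrix (Fin 2) (Fin 2) k) *ᵥ v₀ = v₀ := by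
    intro σ hσ
    have h1 : (((r σ : GL (Fin 2) k) : Matrix (Fin 2) (Fin 2) k) - 1) *ᵥ v₀ = 0 := by
      rw [hv₀, Matrix.mulVec_mulVec, hkey σ hσ, Matrix.zero_mulVec]
    rw [Matrix.sub_mulVec, Matrix.one_mulVec, sub_eq_zero] at h1
    exact h1
  have hnv : (h₀ - 1) *ᵥ v₀ = 0 := by
    have := hfix σ₀ hσ₀
    rw [Matrix.sub_mulVec, Matrix.one_mulVec, sub_eq_zero]
    exact this
  -- the line is stable
  have hstab : ∀ γ : G, ∃ c : k,
      ((r γ : GL (Fin 2) k) : Matrix (Fin 2) (Fin 2) k) *ᵥ v₀ = c • v₀ := by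
    intro γ
    refine glue_ker_line (h₀ - 1) hn0 v₀ _ hw hnv ?_
    have hc : h₀ * ((r γ : GL (Fin 2) k) : Matrix (Fin 2) (Fin 2) k)
        = ((r γ : GL (Fin 2) k) : Matrix (Fin 2) (Fin 2) k)
          * ((r (γ⁻¹ * σ₀ * γ) : GL (Fin 2) k) : Matrix (Fin 2) (Fin 2) k) := by
      rw [hh₀, ← Units.val_mul, ← Units.val_mul, ← map_mul, ← map_mul]
      congr 2
      group
    rw [Matrix.mulVec_mulVec, sub_mul, one_mul, hc, Matrix.sub_mulVec, ← Matrix.mulVec_mulVec,
      hfix _ (hconjK γ σ₀ hσ₀), sub_self]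
  choose α hα using hstab
  have huniq : ∀ c c' : k, c • v₀ = c' • v₀ → c = c' := by
    intro c c' h
    by_contra hcc
    apply hw
    have : (c - c') • v₀ = 0 := by rw [sub_smul, h, sub_self]
    rcases smul_eq_zero.mp this with h1 | h1
    · exact absurd (sub_eq_zero.mp h1) hcc
    · exact h1
  have hα1 : α 1 = 1 := by
    apply huniq
    rw [← hα 1, map_one, Units.val_one, Matrix.one_mulVec, one_smul]
  have hαmul : ∀ γ δ, α (γ * δ) = α γ * α δ := by
    intro γ δ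
    apply huniq
    rw [← hα (γ * δ), map_mul, Units.val_mul, ← Matrix.mulVec_mulVec, hα δ, Matrix.mulVec_smul,
      hα γ, smul_smul, mul_comm]
  let αm : G →* k := { toFun := α, map_one' := hα1, map_mul' := hαmul }
  let αh : G →* kˣ := αm.toHomUnits
  have hαh : ∀ γ, ((αh γ : kˣ) : k) = α γ := fun γ => rfl
  let δh : G →* kˣ := (Matrix.GeneralLinearGroup.det).comp r
  have hδh : ∀ γ, ((δh γ : kˣ) : k)
      = ((r γ : GL (Fin 2) k) : Matrix (Fin 2) (Fin 2) k).det := fun γ => rfl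
  let βh : G →* kˣ := δh / αh
  have hβ : ∀ γ, ((βh γ : kˣ) : k) * α γ
      = ((r γ : GL (Fin 2) k) : Matrix (Fin 2) (Fin 2) k).det := by
    intro γ
    rw [← hδh γ, ← hαh γ, ← Units.val_mul]
    congr 1
    show (δh γ / αh γ) * αh γ = δh γ
    rw [div_mul_cancel]
  have hαne : ∀ γ, α γ ≠ 0 := fun γ => by
    rw [← hαh γ]
    exact Units.ne_zero _
  have hquad : ∀ γ, α γ ^ 2 - ((r γ : GL (Fin 2) k) : Matrix (Fin 2) (Fin 2) k).trace * α γ
      + ((r γ : GL (Fin 2) k) : Matrix (Fin 2) (Fin 2) k).det = 0 := fun γ =>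
    glue_eigen_quadratic _ v₀ hw (α γ) (hα γ)
  refine ⟨glueDiag αh βh, ?_, ?_, ?_, ?_⟩
  · intro γ
    rw [trace_glueDiag, hαh]
    have h1 := hquad γ
    rw [← hβ γ] at h1
    have h2 : (α γ + ((βh γ : kˣ) : k)
        - ((r γ : GL (Fin 2) k) : Matrix (Fin 2) (Fin 2) k).trace) * α γ = 0 := by
      linear_combination h1
    have h3 := (mul_eq_zero.mp h2).resolve_right (hαne γ)
    linear_combination h3
  · intro γ
    rw [det_glueDiag, hαh, mul_comm, hβ]
  · intro σ hσ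
    have ha : αh σ = 1 := by
      apply Units.ext
      rw [hαh, Units.val_one]
      apply huniq
      rw [← hα σ, hσ, Units.val_one, Matrix.one_mulVec, one_smul]
    have hdl : δh σ = 1 := by
      show Matrix.GeneralLinearGroup.det (r σ) = 1
      rw [hσ, map_one]
    refine glueDiag_eq_one _ _ σ ha ?_
    show δh σ / αh σ = 1
    rw [ha, hdl, div_one]
  · intro σ hσ
    have ha : αh σ = 1 := by
      apply Units.ext
      rw [hαh, Units.val_one]
      apply huniq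
      rw [← hα σ, hfix σ hσ, one_smul]
    have hdl : δh σ = 1 := by
      apply Units.ext
      rw [hδh, Units.val_one]
      exact (hun σ hσ).2
    refine glueDiag_eq_one _ _ σ ha ?_
    show δh σ / αh σ = 1
    rw [ha, hdl, div_one]

end Fermat.Agent.S48WGlue
end MergeWrap_S48_W_G_P23_Glue_Split

section MergeWrap_S48_W_G_P23_Glue_Cheb -- from S48/W/G/P23/Glue/Cheb.lean

set_option autoImplicit false

namespace Fermat.Agent.S48WGlue

open Matrix

local notation "Qb" => AlgebraicClosure ℚ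
local notation "GK" => (AlgebraicClosure ℚ ≃ₐ[ℚ] AlgebraicClosure ℚ)

variable {k : Type} [Field k]

/-- two finite levels are contained in a finite NORMAL level. -/
theorem glue_exists_normal (L₁ L₂ : IntermediateField ℚ Qb) [FiniteDimensional ℚ L₁]
    [FiniteDimensional ℚ L₂] :
    ∃ L : IntermediateField ℚ Qb, FiniteDimensional ℚ L ∧ Normal ℚ L ∧ L₁ ≤ L ∧ L₂ ≤ L := by
  have : Algebra.IsAlgebraic ℚ Qb := AlgebraicClosure.isAlgebraic ℚ
  have : IsAlgClosure ℚ Qb := ⟨inferInstance, inferInstance⟩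
  have : Normal ℚ Qb := inferInstance
  refine ⟨IntermediateField.normalClosure ℚ (L₁ ⊔ L₂ : IntermediateField ℚ Qb) Qb,
    normalClosure.is_finiteDimensional ℚ _ Qb, normalClosure.normal ℚ _ Qb, ?_, ?_⟩
  · exact le_sup_left.trans (IntermediateField.le_normalClosure _)
  · exact le_sup_right.trans (IntermediateField.le_normalClosure _)

/-- a homomorphism factoring through the level `L₀ ≤ L` takes the same value on two elements
which agree on `L`. -/
theorem glue_eq_of_agree {M : Type*} [Monoid M] (r : GK →* M) (L₀ L : IntermediateField ℚ Qb)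
    (h₀ : ∀ σ : GK, (∀ x ∈ L₀, σ x = x) → r σ = 1) (hL : L₀ ≤ L) (s t : GK)
    (hst : ∀ x ∈ L, s x = t x) : r s = r t := by
  have h1 : r (t⁻¹ * s) = 1 := by
    apply h₀
    intro x hx
    rw [AlgEquiv.mul_apply, hst x (hL hx)]
    exact t.symm_apply_apply x
  calc r s = r (t * (t⁻¹ * s)) := by rw [mul_inv_cancel_left]
    _ = r t := by rw [map_mul, h1, mul_one]

/-- **Frobenius density for pairs**. -/
theorem glue_cheb (r r' : GK →* GL (Fin 2) k) (hr : GaloisFactorsThroughFiniteLevel r)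
    (hr' : GaloisFactorsThroughFiniteLevel r') (S : Finset ℕ)
    (h : ∀ p : ℕ, p.Prime → p ∉ S → ∀ A : ValuationSubring Qb, A.LiesOverPrime p →
      ∀ τ : GK, A.IsFrobeniusAt τ p →
        ((r τ : GL (Fin 2) k) : Matrix (Fin 2) (Fin 2) k).trace
          = ((r' τ : GL (Fin 2) k) : Matrix (Fin 2) (Fin 2) k).trace ∧
        ((r τ : GL (Fin 2) k) : Matrix (Fin 2) (Fin 2) k).det
          = ((r' τ : GL (Fin 2) k) : Matrix (Fin 2) (Fin 2) k).det) (σ : GK) :
    ((r σ : GL (Fin 2) k) : Matrix (Fin 2) (Fin 2) k).trace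
        = ((r' σ : GL (Fin 2) k) : Matrix (Fin 2) (Fin 2) k).trace ∧
      ((r σ : GL (Fin 2) k) : Matrix (Fin 2) (Fin 2) k).det
        = ((r' σ : GL (Fin 2) k) : Matrix (Fin 2) (Fin 2) k).det := by
  obtain ⟨L₁, hL₁, h₁⟩ := hr
  obtain ⟨L₂, hL₂, h₂⟩ := hr'
  obtain ⟨L, hLfd, hLn, hle₁, hle₂⟩ := glue_exists_normal L₁ L₂
  obtain ⟨p, A, τ, a, j, hp, hpS, hA, hτ, hτa, hσa⟩ :=
    Fermat.Agent.F3.frobDensityLite L hLfd hLn σ S
  obtain ⟨e1, e2⟩ := h p hp hpS A hA τ hτ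
  -- `r σ = (r τ) ^ j`
  have key : ∀ (ρ : GK →* GL (Fin 2) k) (L₀ : IntermediateField ℚ Qb),
      (∀ s : GK, (∀ x ∈ L₀, s x = x) → ρ s = 1) → L₀ ≤ L →
      ((ρ σ : GL (Fin 2) k) : Matrix (Fin 2) (Fin 2) k)
        = ((ρ τ : GL (Fin 2) k) : Matrix (Fin 2) (Fin 2) k) ^ j := by
    intro ρ L₀ h₀ hle
    have hA1 : ρ τ = ρ (σ ^ a) := glue_eq_of_agree ρ L₀ L h₀ hle τ (σ ^ a) hτa
    have hA2 : ρ (σ ^ (a * j)) = ρ σ := glue_eq_of_agree ρ L₀ L h₀ hle (σ ^ (a * j)) σ hσa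
    rw [← hA2, hA1, ← Units.val_pow_eq_pow_val, ← map_pow, ← pow_mul]
  rw [key r L₁ h₁ hle₁, key r' L₂ h₂ hle₂]
  exact glue_trace_det_pow _ _ e1 e2 j

end Fermat.Agent.S48WGlue
end MergeWrap_S48_W_G_P23_Glue_Cheb

section MergeWrap_S48_W_G_P23_Glue_Main -- from S48/W/G/P23/Glue/Main.lean

set_option autoImplicit false
set_option linter.unusedSectionVars false

noncomputable section

namespace Fermat.Agent.S48WGlue

open Matrix Polynomial Fermat.Agent.S48W Fermat.Agent.S48.Bnd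

local notation "Qb" => AlgebraicClosure ℚ
local notation "GK" => (AlgebraicClosure ℚ ≃ₐ[ℚ] AlgebraicClosure ℚ)
local notation "Zb" => integralClosure ℤ ℂ

variable {k : Type} [Field k]

theorem glue_toGL_factors (ρ : ResidualGaloisRep k) (b : Module.Basis (Fin 2) k ρ.V) :
    GaloisFactorsThroughFiniteLevel (toGL ρ b) := by
  obtain ⟨L, hL, h⟩ := ρ.factorsThroughFiniteLevel
  exact ⟨L, hL, fun σ hσ => toGL_eq_one_of ρ b (h σ hσ)⟩

/-- **gluing of residual representations**. -/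
theorem glue_residual (ρ ρ' : ResidualGaloisRep k) (S : Finset ℕ)
    (h : ∀ p : ℕ, p.Prime → p ∉ S → ∀ A : ValuationSubring Qb, A.LiesOverPrime p →
      ∀ τ : GK, A.IsFrobeniusAt τ p →
        LinearMap.charpoly (ρ.ρ τ) = LinearMap.charpoly (ρ'.ρ τ)) :
    ∃ ρ'' : ResidualGaloisRep k,
      (∀ σ, LinearMap.charpoly (ρ''.ρ σ) = LinearMap.charpoly (ρ.ρ σ)) ∧
      (∀ σ, LinearMap.charpoly (ρ''.ρ σ) = LinearMap.charpoly (ρ'.ρ σ)) ∧
      (∀ σ, ρ.ρ σ = 1 → ρ''.ρ σ = 1) ∧ (∀ σ, ρ'.ρ σ = 1 → ρ''.ρ σ = 1) := by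
  obtain ⟨b⟩ := exists_basis ρ
  obtain ⟨b'⟩ := exists_basis ρ'
  have hr := glue_toGL_factors ρ b
  have hr' := glue_toGL_factors ρ' b'
  have hall := glue_cheb (toGL ρ b) (toGL ρ' b') hr hr' S (by
    intro p hp hpS A hA τ hτ
    have := h p hp hpS A hA τ hτ
    rw [charpoly_eq_toGL ρ b, charpoly_eq_toGL ρ' b'] at this
    exact quad_inj this)
  obtain ⟨r'', h1, h2, h3, h4⟩ := glue_split (toGL ρ b) (toGL ρ' b')
    (fun σ => (hall σ).1) (fun σ => (hall σ).2)
  have hr'' : GaloisFactorsThroughFiniteLevel r'' := by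
    obtain ⟨L, hL, hL'⟩ := hr
    exact ⟨L, hL, fun σ hσ => h3 σ (hL' σ hσ)⟩
  refine ⟨ofGL r'' hr'', ?_, ?_, ?_, ?_⟩
  · intro σ
    rw [charpoly_ofGL, charpoly_eq_toGL ρ b, h1, h2]
  · intro σ
    rw [charpoly_ofGL, charpoly_eq_toGL ρ' b', h1, h2, (hall σ).1, (hall σ).2]
  · intro σ hσ
    exact ofGL_ρ_eq_one_of r'' hr'' (h3 σ (toGL_eq_one_of ρ b hσ))
  · intro σ hσ
    exact ofGL_ρ_eq_one_of r'' hr'' (h4 σ (toGL_eq_one_of ρ' b' hσ))

/-- **seat LIFT**: the level lift of a mod-`φ` eigenvector. -/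
def LiftStatement : Prop :=
  ∀ (M r : ℕ) [NeZero M] [NeZero (r * M)] (k : Type) [Field k] (φ : Zb →+* k)
    (e : ModEigen M k φ),
    ∃ e' : ModEigen (r * M) k φ,
      (∀ p : Nat.Primes, e'.t p = e.t p) ∧
      ∀ (p : ℕ) (hpM : Nat.Coprime p M) (hpM' : Nat.Coprime p (r * M)),
        e'.χ (ZMod.unitOfCoprime p hpM') = e.χ (ZMod.unitOfCoprime p hpM)

/-- **GLUE**: the residual representation at level `M` from the levels `4 M` and `9 M`. -/
theorem residualOneAt_glue (hL : LiftStatement) (M : ℕ) [NeZero M] [NeZero (4 * M)]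
    [NeZero (9 * M)] (ℓ : ℕ) (hℓ : ℓ.Prime)
    (h4 : ResidualOneAt (4 * M) ℓ) (h9 : ResidualOneAt (9 * M) ℓ) : ResidualOneAt M ℓ := by
  intro k _ _ φ e
  obtain ⟨e4, ht4, hχ4⟩ := hL M 4 k φ e
  obtain ⟨e9, ht9, hχ9⟩ := hL M 9 k φ e
  obtain ⟨ρ4, hu4, hc4⟩ := h4 k φ e4
  obtain ⟨ρ9, hu9, hc9⟩ := h9 k φ e9
  have hM0 : M ≠ 0 := NeZero.ne M
  have h6 : 6 * M * ℓ ≠ 0 := mul_ne_zero (mul_ne_zero (by norm_num) hM0) hℓ.ne_zero
  -- the formula at level `4 M`
  have hf4 : ∀ (p : ℕ) (hp : p.Prime) (hpM : Nat.Coprime p M), p ≠ 2 → p ≠ ℓ →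
      ∀ A : ValuationSubring Qb, A.LiesOverPrime p → ∀ σ : GK, A.IsFrobeniusAt σ p →
        LinearMap.charpoly (ρ4.ρ σ) = X ^ 2 - C (e.t ⟨p, hp⟩) * X
          + C (((p : ℕ) : k) * φ (e.χ (ZMod.unitOfCoprime p hpM) : Zb)) := by
    intro p hp hpM hp2 hpℓ A hA σ hσ
    have hp4 : Nat.Coprime p 4 := by
      have : Nat.Coprime p 2 := (Nat.coprime_primes hp Nat.prime_two).mpr hp2
      exact Nat.Coprime.pow_right 2 this
    have hpM' : Nat.Coprime p (4 * M) := Nat.Coprime.mul_right hp4 hpM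
    have := hc4 ⟨p, hp⟩ hpM' hpℓ A hA σ hσ
    rw [this, ht4 ⟨p, hp⟩]
    have h2 := hχ4 p hpM hpM'
    simp only at h2 ⊢
    rw [h2]
  have hf9 : ∀ (p : ℕ) (hp : p.Prime) (hpM : Nat.Coprime p M), p ≠ 3 → p ≠ ℓ →
      ∀ A : ValuationSubring Qb, A.LiesOverPrime p → ∀ σ : GK, A.IsFrobeniusAt σ p →
        LinearMap.charpoly (ρ9.ρ σ) = X ^ 2 - C (e.t ⟨p, hp⟩) * X
          + C (((p : ℕ) : k) * φ (e.χ (ZMod.unitOfCoprime p hpM) : Zb)) := by
    intro p hp hpM hp3 hpℓ A hA σ hσ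
    have hp9 : Nat.Coprime p 9 := by
      have : Nat.Coprime p 3 := (Nat.coprime_primes hp Nat.prime_three).mpr hp3
      exact Nat.Coprime.pow_right 2 this
    have hpM' : Nat.Coprime p (9 * M) := Nat.Coprime.mul_right hp9 hpM
    have := hc9 ⟨p, hp⟩ hpM' hpℓ A hA σ hσ
    rw [this, ht9 ⟨p, hp⟩]
    have h2 := hχ9 p hpM hpM'
    simp only at h2 ⊢
    rw [h2]
  obtain ⟨ρ, hρ4, hρ9, hone4, hone9⟩ := glue_residual ρ4 ρ9 (6 * M * ℓ).primeFactors (by
    intro p hp hpS A hA τ hτ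
    have hnd : ¬ p ∣ 6 * M * ℓ := fun hd => hpS (Nat.mem_primeFactors.mpr ⟨hp, hd, h6⟩)
    have hpM : Nat.Coprime p M :=
      (Nat.Prime.coprime_iff_not_dvd hp).mpr fun hd => hnd ((hd.mul_left 6).mul_right ℓ)
    have hp2 : p ≠ 2 := by
      rintro rfl
      exact hnd (((show 2 ∣ 6 by norm_num).mul_right M).mul_right ℓ)
    have hp3 : p ≠ 3 := by
      rintro rfl
      exact hnd (((show 3 ∣ 6 by norm_num).mul_right M).mul_right ℓ)
    have hpℓ : p ≠ ℓ := by
      rintro rfl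
      exact hnd (dvd_mul_left _ _)
    rw [hf4 p hp hpM hp2 hpℓ A hA τ hτ, hf9 p hp hpM hp3 hpℓ A hA τ hτ])
  refine ⟨ρ, ?_, ?_⟩
  · intro p hp hpMℓ A hA σ hσ
    by_cases hp2 : p = 2
    · -- use level `9 M`
      refine hone9 σ (hu9 p hp ?_ A hA σ hσ)
      intro hd
      rw [mul_assoc] at hd
      rcases (Nat.Prime.dvd_mul hp).mp hd with h | h
      · rw [hp2] at h
        norm_num at h
      · exact hpMℓ h
    · refine hone4 σ (hu4 p hp ?_ A hA σ hσ)
      intro hd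
      rw [mul_assoc] at hd
      rcases (Nat.Prime.dvd_mul hp).mp hd with h | h
      · apply hp2
        have : p ∣ 2 ^ 2 := by simpa using h
        exact (Nat.prime_dvd_prime_iff_eq hp Nat.prime_two).mp (hp.dvd_of_dvd_pow this)
      · exact hpMℓ h
  · intro p hpM hpℓ A hA σ hσ
    by_cases hp2 : (p : ℕ) = 2
    · have hp3 : (p : ℕ) ≠ 3 := by rw [hp2]; norm_num
      exact (hρ9 σ).trans (hf9 p p.2 hpM hp3 hpℓ A hA σ hσ)
    · exact (hρ4 σ).trans (hf4 p p.2 hpM hp2 hpℓ A hA σ hσ)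

/-- **W-WIRE with gluing**: the wall for `ℓ ≥ ℓ₀` from `ProductEigen` and the residual
representations at the pairs `(M', ℓ)` with `ℓ₀ ≤ ℓ`, `ℓ ∣ M'` and (`4 ∣ M'` or `9 ∣ M'`). -/
theorem wallStatementFrom_of_residualAt23 (hL : LiftStatement) (ℓ₀ : ℕ) (hP : ProductEigen)
    (hR : ∀ (M : ℕ) [NeZero M] (ℓ : ℕ), ℓ.Prime → ℓ₀ ≤ ℓ → ℓ ∣ M → (4 ∣ M ∨ 9 ∣ M) →
      ResidualOneAt M ℓ) :
    WallStatementFrom ℓ₀ :=
  wallStatementFrom_of_residualAt ℓ₀ hP fun M _ ℓ hℓ hℓ₀ hℓM => by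
    have : NeZero (4 * M) := ⟨mul_ne_zero (by norm_num) (NeZero.ne M)⟩
    have : NeZero (9 * M) := ⟨mul_ne_zero (by norm_num) (NeZero.ne M)⟩
    exact residualOneAt_glue hL M ℓ hℓ
      (hR (4 * M) ℓ hℓ hℓ₀ (hℓM.mul_left 4) (Or.inl (dvd_mul_right 4 M)))
      (hR (9 * M) ℓ hℓ hℓ₀ (hℓM.mul_left 9) (Or.inr (dvd_mul_right 9 M)))

/-- **W-WIRE with gluing**: the wall for `ℓ ≥ ℓ₀` from `ProductEigen` and the interface
propositions of blocks G, H, A at the pairs `(M', ℓ)` with `ℓ₀ ≤ ℓ`, `ℓ ∣ M'` and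
(`4 ∣ M'` or `9 ∣ M'`): at such a level every prime `p ∤ M' ℓ` is `≥ 5`, or `p = 3` with
`4 ∣ M'`, or `p = 2` with `9 ∣ M'`. -/
theorem wallStatementFrom_of_at23 (hL : LiftStatement) (ℓ₀ : ℕ) (hP : ProductEigen)
    (hU : ∀ (M : ℕ) [NeZero M] (ℓ : ℕ), ℓ.Prime → ℓ₀ ≤ ℓ → ℓ ∣ M → (4 ∣ M ∨ 9 ∣ M) →
      TorsionUnramifiedOneAt M ℓ)
    (hQ : ∀ (M : ℕ) [NeZero M] (ℓ : ℕ), ℓ.Prime → ℓ₀ ≤ ℓ → ℓ ∣ M → (4 ∣ M ∨ 9 ∣ M) →
      TorsionFrobQuadraticOneAt M ℓ)
    (hC : ∀ (M : ℕ) [NeZero M], ℓ₀ ≤ M → HeckeGaloisCommOne M)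
    (hE : ∀ (M : ℕ) [NeZero M] (ℓ : ℕ), ℓ.Prime → ℓ₀ ≤ ℓ → ℓ ∣ M → EigenclassOneAt M ℓ) :
    WallStatementFrom ℓ₀ :=
  wallStatementFrom_of_residualAt23 hL ℓ₀ hP fun M _ ℓ hℓ hℓ₀ hℓM h49 =>
    Fermat.Agent.S48WR.residualOneAt_of_interfaces M ℓ hℓ (hU M ℓ hℓ hℓ₀ hℓM h49)
      (hQ M ℓ hℓ hℓ₀ hℓM h49)
      (hC M (hℓ₀.trans (Nat.le_of_dvd (Nat.pos_of_ne_zero (NeZero.ne M)) hℓM)))
      (hE M ℓ hℓ hℓ₀ hℓM)

end Fermat.Agent.S48WGlue
end
end MergeWrap_S48_W_G_P23_Glue_Main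

section MergeWrap_S48_W_G_P23_Glue_Lift -- from S48/W/G/P23/Glue/Lift.lean

set_option autoImplicit false
set_option linter.unusedSectionVars false

noncomputable section

namespace Fermat.Agent.S48WGlue

open Fermat.Agent.S48W CongruenceSubgroup
open scoped MatrixGroups ModularForm

local notation "Zb" => integralClosure ℤ ℂ

/-- `Γ₀(M') ≤ Γ₀(M)` for `M ∣ M'`. -/
theorem lift_Gamma0_le_of_dvd {M M' : ℕ} (h : M ∣ M') : Gamma0 M' ≤ Gamma0 M := by
  intro A hA
  rw [Gamma0_mem] at hA ⊢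
  have h1 := congrArg (ZMod.castHom h (ZMod M)) hA
  simpa using h1

/-- the reduction of a unit which is the class of an integer. -/
theorem lift_unitsMap_eq {M M' : ℕ} (h : M ∣ M') (d : (ZMod M')ˣ) (n : ℤ)
    (hd : (d : ZMod M') = (n : ZMod M')) :
    ((ZMod.unitsMap h d : (ZMod M)ˣ) : ZMod M) = (n : ZMod M) := by
  rw [ZMod.unitsMap_def, Units.coe_map]
  have h1 := congrArg (ZMod.castHom h (ZMod M)) hd
  simpa using h1

theorem lift_unitsMap_unitOfCoprime {M M' : ℕ} (h : M ∣ M') (p : ℕ) (hpM : Nat.Coprime p M)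
    (hpM' : Nat.Coprime p M') :
    ZMod.unitsMap h (ZMod.unitOfCoprime p hpM') = ZMod.unitOfCoprime p hpM := by
  apply Units.ext
  rw [ZMod.unitsMap_def, Units.coe_map, ZMod.coe_unitOfCoprime, ZMod.coe_unitOfCoprime]
  simp

/-- **seat LIFT**. -/
theorem liftStatement : LiftStatement := by
  intro M r _ _ k _ φ e
  have hdvd : M ∣ r * M := Dvd.intro_left r rfl
  refine ⟨{ g := p3_restrictCusp (p3_Gamma1_map_le hdvd) e.g
            χ := e.χ.comp (ZMod.unitsMap hdvd)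
            neb := ?_
            c := e.c
            hc := e.hc
            ne := e.ne
            t := e.t
            eig := ?_ }, fun _ => rfl, ?_⟩
  · intro γ hγ d hd z
    have := e.neb γ (lift_Gamma0_le_of_dvd hdvd hγ) (ZMod.unitsMap hdvd d)
      (lift_unitsMap_eq hdvd d (γ 1 1) hd) z
    exact this
  · intro p hpM' n
    have hpM : Nat.Coprime (p : ℕ) M := Nat.Coprime.coprime_dvd_right hdvd hpM'
    have := e.eig p hpM n
    rw [MonoidHom.comp_apply, lift_unitsMap_unitOfCoprime hdvd p hpM hpM']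
    exact this
  · intro p hpM hpM'
    show e.χ (ZMod.unitsMap hdvd (ZMod.unitOfCoprime p hpM')) = _
    rw [lift_unitsMap_unitOfCoprime hdvd p hpM hpM']

/-- **GLUE**: the residual representation at level `M` from the levels `4 M` and `9 M`. -/
theorem residualOneAt_glue' (M : ℕ) [NeZero M] [NeZero (4 * M)] [NeZero (9 * M)] (ℓ : ℕ)
    (hℓ : ℓ.Prime) (h4 : ResidualOneAt (4 * M) ℓ) (h9 : ResidualOneAt (9 * M) ℓ) :
    ResidualOneAt M ℓ :=
  residualOneAt_glue liftStatement M ℓ hℓ h4 h9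

/-- **W-WIRE with gluing**, from the residual representations at the levels `M'` with `4 ∣ M'`
or `9 ∣ M'`. -/
theorem wallStatementFrom_of_residualAt23' (ℓ₀ : ℕ) (hP : ProductEigen)
    (hR : ∀ (M : ℕ) [NeZero M] (ℓ : ℕ), ℓ.Prime → ℓ₀ ≤ ℓ → ℓ ∣ M → (4 ∣ M ∨ 9 ∣ M) →
      ResidualOneAt M ℓ) :
    WallStatementFrom ℓ₀ :=
  wallStatementFrom_of_residualAt23 liftStatement ℓ₀ hP hR

/-- **W-WIRE with gluing**, from the interface propositions of blocks G, H, A at the levels `M'`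
with `4 ∣ M'` or `9 ∣ M'` (every prime `p ∤ M' ℓ` is then `≥ 5`, or `p = 3` with `4 ∣ M'`, or
`p = 2` with `9 ∣ M'`). -/
theorem wallStatementFrom_of_at23' (ℓ₀ : ℕ) (hP : ProductEigen)
    (hU : ∀ (M : ℕ) [NeZero M] (ℓ : ℕ), ℓ.Prime → ℓ₀ ≤ ℓ → ℓ ∣ M → (4 ∣ M ∨ 9 ∣ M) →
      TorsionUnramifiedOneAt M ℓ)
    (hQ : ∀ (M : ℕ) [NeZero M] (ℓ : ℕ), ℓ.Prime → ℓ₀ ≤ ℓ → ℓ ∣ M → (4 ∣ M ∨ 9 ∣ M) →
      TorsionFrobQuadraticOneAt M ℓ)
    (hC : ∀ (M : ℕ) [NeZero M], ℓ₀ ≤ M → HeckeGaloisCommOne M)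
    (hE : ∀ (M : ℕ) [NeZero M] (ℓ : ℕ), ℓ.Prime → ℓ₀ ≤ ℓ → ℓ ∣ M → EigenclassOneAt M ℓ) :
    WallStatementFrom ℓ₀ :=
  wallStatementFrom_of_at23 liftStatement ℓ₀ hP hU hQ hC hE

end Fermat.Agent.S48WGlue
end
end MergeWrap_S48_W_G_P23_Glue_Lift

section MergeWrap_S48_W_G_Port_DefsAt -- from S48/W/G/Port/DefsAt.lean

set_option autoImplicit false

noncomputable section

namespace Fermat.Agent.S48WPort

open ModularCurve AlgebraicCurve Fermat.Agent.GaussInt Fermat.Agent.S48W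

local notation "Kb" => AlgebraicClosure ℚ
local notation "GK" => (AlgebraicClosure ℚ ≃ₐ[ℚ] AlgebraicClosure ℚ)

section Generic

variable (F₀ : IntermediateField ℚ (LaurentSeries ℚ))

/-- the KEY LEMMA for `F = ℚ̄ F₀` at the place `A`, for the exponent `n`. -/
def KeyLemmaGenAt (A : ValuationSubring Kb) (n : ℕ) : Prop :=
  ∀ g : laurentBaseChange Kb F₀, g ≠ 0 →
    (∀ P : Place Kb (laurentBaseChange Kb F₀), (n : ℤ) ∣ P.ord g) →
    (g : LaurentSeries Kb) ∈ gaussSub A (laurentBaseChange Kb F₀) →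
    gaussResFun A (laurentBaseChange Kb F₀) (g : LaurentSeries Kb) = 1 →
    ∃ h : laurentBaseChange Kb F₀, h ^ n = g

/-- "inertia at `A` acts trivially on the `n`-torsion", function form. -/
def InertiaPowGenAt (A : ValuationSubring Kb) (n : ℕ) : Prop :=
  ∀ τ ∈ A.inertiaSubgroupIn ℚ, ∀ f : laurentBaseChange Kb F₀, f ≠ 0 →
    ∀ D : Divisor.degZero (K := Kb) (F := laurentBaseChange Kb F₀),
      (∀ v, (n : ℤ) * (D : Divisor Kb (laurentBaseChange Kb F₀)) v = v.ord f) →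
        ∃ u : laurentBaseChange Kb F₀, u ^ n * f = galFunGen F₀ τ f

variable {F₀}
variable {F₁ : IntermediateField ℚ (LaurentSeries ℚ)}

/-- the (twisted) Eichler-Shimura relation at the place `A` over `p`, function form, for the
exponent `n`. -/
def FrobPowGenAt (h : F₀ ≤ F₁) (p : ℕ) [NeZero p] (hF : ∀ y ∈ F₀, qExpand ℚ p y ∈ F₁)
    (δ : laurentBaseChange Kb F₀ ≃ₐ[Kb] laurentBaseChange Kb F₀)
    (A : ValuationSubring Kb) (n : ℕ) : Prop :=
  ∀ σ : GK, A.IsFrobeniusAt σ p → ∀ f : laurentBaseChange Kb F₀, f ≠ 0 →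
    ∀ D : Divisor.degZero (K := Kb) (F := laurentBaseChange Kb F₀),
      (∀ v, (n : ℤ) * (D : Divisor Kb (laurentBaseChange Kb F₀)) v = v.ord f) →
        ∃ u : laurentBaseChange Kb F₀,
          u ^ n * qSeriesHeckeFun h p hF f = galFunGen F₀ σ (δ f) * galFunGen F₀ σ⁻¹ f ^ p

variable (F₀)

theorem keyLemmaGen_iff_at (p : ℕ) (A : ValuationSubring Kb) :
    KeyLemmaGen F₀ p A ↔ ∀ n : ℕ, ¬ p ∣ n → KeyLemmaGenAt F₀ A n := Iff.rfl

theorem inertiaPowGen_iff_at (p : ℕ) (A : ValuationSubring Kb) :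
    InertiaPowGen F₀ p A ↔ ∀ n : ℕ, ¬ p ∣ n → InertiaPowGenAt F₀ A n := Iff.rfl

variable {F₀}

theorem frobPowGen_iff_at (h : F₀ ≤ F₁) (p : ℕ) [NeZero p]
    (hF : ∀ y ∈ F₀, qExpand ℚ p y ∈ F₁)
    (δ : laurentBaseChange Kb F₀ ≃ₐ[Kb] laurentBaseChange Kb F₀) (A : ValuationSubring Kb) :
    FrobPowGen h p hF δ A ↔ ∀ n : ℕ, ¬ p ∣ n → FrobPowGenAt h p hF δ A n := Iff.rfl

end Generic

/-! ### level `Γ₁(M)`, torsion order `ℓ` -/

/-- the KEY LEMMA at level `Γ₁(M)` for the exponent `ℓ`, all `p ∤ M ℓ`. -/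
def KeyLemmaOneAt (M : ℕ) [NeZero M] (ℓ : ℕ) : Prop :=
  ∀ (p : ℕ), p.Prime → ¬ p ∣ M * ℓ → ∀ A : ValuationSubring Kb, A.LiesOverPrime p →
    KeyLemmaGenAt (FOne M) A ℓ

/-- "inertia acts trivially on `J₁(M)[ℓ]`", function form. -/
def InertiaPowOneAt (M : ℕ) [NeZero M] (ℓ : ℕ) : Prop :=
  ∀ (p : ℕ), p.Prime → ¬ p ∣ M * ℓ → ∀ A : ValuationSubring Kb, A.LiesOverPrime p →
    InertiaPowGenAt (FOne M) A ℓ

/-- the (twisted) Eichler-Shimura relation on `J₁(M)[ℓ]`, function form. -/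
def FrobPowOneAt (M : ℕ) [NeZero M] (ℓ : ℕ) : Prop :=
  ∀ (p : ℕ) [NeZero p] (_ : p.Prime) (hpM : Nat.Coprime p M), p ≠ ℓ →
    ∀ (δ : FOneBar M ≃ₐ[Kb] FOneBar M), IsDiamond M (ZMod.unitOfCoprime p hpM) δ →
    ∀ A : ValuationSubring Kb, A.LiesOverPrime p →
      FrobPowGenAt (FOne_le_FOneP M p) p (fun _ hy => qExpand_mem_FOneP M p hy) δ A ℓ

theorem keyLemmaOneAt_of {M : ℕ} [NeZero M] (h : KeyLemmaAtOne M) (ℓ : ℕ) :
    KeyLemmaOneAt M ℓ := fun p hp hpMℓ A hA =>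
  h p hp (fun hd => hpMℓ (hd.mul_right ℓ)) A hA ℓ (fun hd => hpMℓ (hd.mul_left M))

end Fermat.Agent.S48WPort
end
end MergeWrap_S48_W_G_Port_DefsAt

section MergeWrap_S48_W_G_Port_FunOne -- from S48/W/G/Port/FunOne.lean

set_option autoImplicit false

noncomputable section

namespace Fermat.Agent.S48WPort

open ModularCurve AlgebraicCurve HahnSeries Fermat.Agent.F3 Fermat.Agent.F3G
  Fermat.Agent.GaussInt Fermat.Agent.S48W

local notation "Kb" => AlgebraicClosure ℚ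
local notation "GK" => (AlgebraicClosure ℚ ≃ₐ[ℚ] AlgebraicClosure ℚ)

section Generic

variable {F₀ : IntermediateField ℚ (LaurentSeries ℚ)}

/-- **P1 (function form)**: the KEY LEMMA at `A` gives the function form of "inertia at `A` acts
trivially on the prime-to-`p` torsion", for every field generated by series integral at `A`. -/
theorem inertiaPowGen_of_keyLemma {p : ℕ} {A : ValuationSubring Kb} (hp : p.Prime)
    (hA : A.LiesOverPrime p) (hint : IsIntGen A F₀) (hKL : KeyLemmaGen F₀ p A) :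
    InertiaPowGen F₀ p A := by
  intro n hndvd τ hτ f hf D hD
  have hn : n ≠ 0 := by
    rintro rfl
    exact hndvd (dvd_zero p)
  set G := arithmeticGalois F₀ τ with hG
  have hstab : ∀ y ∈ laurentBaseChange Kb F₀,
      coeffMap ((τ : Kb ≃ₐ[ℚ] Kb) : Kb →+* Kb) y ∈ laurentBaseChange Kb F₀ := fun y hy =>
    coeffMap_mem_laurentBaseChange τ hy
  obtain ⟨c, hc0, hmem, hres⟩ :=
    exists_const_mul_mem_gaussSub hp hA hint f.2 (fun h => hf (Subtype.ext h))
  -- the normalised function `w = c f`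
  set w : laurentBaseChange Kb F₀ := algebraMap Kb (laurentBaseChange Kb F₀) c * f with hw
  have hwcoe : (w : LaurentSeries Kb) =
      algebraMap Kb (LaurentSeries Kb) c * (f : LaurentSeries Kb) := rfl
  have hw0 : w ≠ 0 := mul_ne_zero (by simpa using hc0) hf
  have hwmem : (w : LaurentSeries Kb) ∈ gaussSub A (laurentBaseChange Kb F₀) := hmem
  have hwres : gaussResFun A (laurentBaseChange Kb F₀) (w : LaurentSeries Kb) ≠ 0 := hres
  -- `τ w`
  have hτcoe : ((G • w : laurentBaseChange Kb F₀) : LaurentSeries Kb) =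
      coeffMap ((τ : Kb ≃ₐ[ℚ] Kb) : Kb →+* Kb) (w : LaurentSeries Kb) :=
    coe_arithmeticGalois_smul _ τ w
  have hτmem : ((G • w : laurentBaseChange Kb F₀) : LaurentSeries Kb)
      ∈ gaussSub A (laurentBaseChange Kb F₀) := by
    rw [hτcoe]
    exact coeffMap_mem_gaussSub_of_inertia τ hτ hstab hwmem
  have hτres : gaussResFun A (laurentBaseChange Kb F₀)
      ((G • w : laurentBaseChange Kb F₀) : LaurentSeries Kb) =
      gaussResFun A (laurentBaseChange Kb F₀) (w : LaurentSeries Kb) := by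
    rw [hτcoe]
    exact gaussResFun_inertia τ hτ hstab hwmem
  have hτw0 : G • w ≠ 0 := by simpa using hw0
  -- `g = τ w / w`
  set g : laurentBaseChange Kb F₀ := (G • w) * w⁻¹ with hg
  have hg0 : g ≠ 0 := mul_ne_zero hτw0 (inv_ne_zero hw0)
  have hinvmem : ((w⁻¹ : laurentBaseChange Kb F₀) : LaurentSeries Kb)
      ∈ gaussSub A (laurentBaseChange Kb F₀) := by
    have : ((w⁻¹ : laurentBaseChange Kb F₀) : LaurentSeries Kb) = (w : LaurentSeries Kb)⁻¹ := rfl
    rw [this]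
    exact inv_mem_gaussSub hwmem hwres
  have hgmem : (g : LaurentSeries Kb) ∈ gaussSub A (laurentBaseChange Kb F₀) :=
    (gaussSub A (laurentBaseChange Kb F₀)).mul_mem hτmem hinvmem
  have hgres : gaussResFun A (laurentBaseChange Kb F₀) (g : LaurentSeries Kb) = 1 := by
    have h1 : gaussRes A (laurentBaseChange Kb F₀) (⟨_, hτmem⟩ * ⟨_, hinvmem⟩) =
        gaussRes A (laurentBaseChange Kb F₀) ⟨_, hτmem⟩ *
          gaussRes A (laurentBaseChange Kb F₀) ⟨_, hinvmem⟩ := map_mul _ _ _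
    have h2 : gaussResFun A (laurentBaseChange Kb F₀)
        ((w⁻¹ : laurentBaseChange Kb F₀) : LaurentSeries Kb) =
        (gaussResFun A (laurentBaseChange Kb F₀) (w : LaurentSeries Kb))⁻¹ :=
      gaussResFun_inv hwmem hwres
    have h3 : gaussResFun A (laurentBaseChange Kb F₀) (g : LaurentSeries Kb) =
        gaussResFun A (laurentBaseChange Kb F₀)
            ((G • w : laurentBaseChange Kb F₀) : LaurentSeries Kb) *
          gaussResFun A (laurentBaseChange Kb F₀)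
            ((w⁻¹ : laurentBaseChange Kb F₀) : LaurentSeries Kb) := h1
    rw [h3, hτres, h2, mul_inv_cancel₀ hwres]
  -- divisibility of the divisor of `g`
  have hcF : (algebraMap Kb (laurentBaseChange Kb F₀) c) ≠ 0 := by simpa using hc0
  have hordw : ∀ v : Place Kb (laurentBaseChange Kb F₀), v.ord w = v.ord f := fun v => by
    rw [hw, v.ord_mul hcF hf, place_ord_algebraMap v hc0, zero_add]
  have hDw : ∀ v : Place Kb (laurentBaseChange Kb F₀),
      (n : ℤ) * (D : Divisor Kb (laurentBaseChange Kb F₀)) v = v.ord w := fun v => by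
    rw [hordw, hD]
  have hdvd : ∀ P : Place Kb (laurentBaseChange Kb F₀), (n : ℤ) ∣ P.ord g := by
    intro P
    have h1 := mul_smul_divisor_apply_eq_ord G (n : ℤ) hDw P
    rw [hg, P.ord_mul hτw0 (inv_ne_zero hw0), P.ord_inv, ← h1, ← hDw P]
    exact ⟨(G • (D : Divisor Kb (laurentBaseChange Kb F₀))) P
      - (D : Divisor Kb (laurentBaseChange Kb F₀)) P, by ring⟩
  obtain ⟨h, hh⟩ := hKL n hndvd g hg0 hdvd hgmem hgres
  -- the constant factor
  have hτc0 : τ c ≠ 0 := by simpa using hc0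
  obtain ⟨b, hb⟩ := IsAlgClosed.exists_pow_nat_eq (c / τ c) (Nat.pos_of_ne_zero hn)
  refine ⟨algebraMap Kb (laurentBaseChange Kb F₀) b * h, ?_⟩
  have hGw : G • w = algebraMap Kb (laurentBaseChange Kb F₀) (τ c) * (G • f) := by
    rw [hw, smul_mul']
    congr 1
    exact SemilinearAut.smul_algebraMap G c
  have hgw : g * w = G • w := by
    rw [hg, mul_assoc, inv_mul_cancel₀ hw0, mul_one]
  have hτcF : algebraMap Kb (laurentBaseChange Kb F₀) (τ c) ≠ 0 := by simpa using hτc0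
  show (algebraMap Kb (laurentBaseChange Kb F₀) b * h) ^ n * f = G • f
  have e1 : algebraMap Kb (laurentBaseChange Kb F₀) (τ c) *
        ((algebraMap Kb (laurentBaseChange Kb F₀) b * h) ^ n * f) =
      algebraMap Kb (laurentBaseChange Kb F₀) (τ c) * (G • f) := by
    rw [← hGw, ← hgw, ← hh, hw, mul_pow, ← map_pow, hb, map_div₀]
    field_simp
  exact mul_left_cancel₀ hτcF e1

/-- **P1 (classes)**: the function form at `A` gives: the inertia group of `A` acts trivially on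
the `n`-torsion of `Pic⁰(ℚ̄ F₀)`, `p ∤ n`. -/
theorem funOne_smul_eq_of_inertiaPowGen {p : ℕ} {A : ValuationSubring Kb}
    (h : InertiaPowGen F₀ p A) {n : ℕ} (hndvd : ¬ p ∣ n) {τ : GK}
    (hτ : τ ∈ A.inertiaSubgroupIn ℚ) (x : Pic0 Kb (laurentBaseChange Kb F₀))
    (hx : n • x = 0) : τ • x = x := by
  have hn : n ≠ 0 := by
    rintro rfl
    exact hndvd (dvd_zero p)
  have hx' : (n : ℤ) • x = 0 := by rwa [natCast_zsmul]
  obtain ⟨D, f, hf, rfl, hD⟩ := exists_div_of_zsmul_eq_zero (n : ℤ) x hx'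
  obtain ⟨u, hu⟩ := h n hndvd τ hτ f hf D hD
  have hτf : galFunGen F₀ τ f ≠ 0 := by
    show arithmeticGalois F₀ τ • f ≠ 0
    simpa using hf
  have hu0 : u ≠ 0 := by
    rintro rfl
    rw [zero_pow hn, zero_mul] at hu
    exact hτf hu.symm
  rw [← sub_eq_zero]
  show arithmeticGalois F₀ τ • Pic0.mk D - Pic0.mk D = 0
  rw [SemilinearAut.pic0_smul_mk]
  refine mk_eq_zero_of_mul_eq_ord_pow n hn
    (SemilinearAut.degZeroSMulHom (arithmeticGalois F₀ τ) D - D)
    hu0 fun v => ?_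
  have h1 := mul_smul_divisor_apply_eq_ord (arithmeticGalois F₀ τ)
    (n : ℤ) hD v
  have h2 := hD v
  have h3 : v.ord (galFunGen F₀ τ f) = v.ord (u ^ n) + v.ord f := by
    rw [← hu, v.ord_mul (pow_ne_zero n hu0) hf]
  rw [AddSubgroup.coe_sub, Finsupp.sub_apply, mul_sub, SemilinearAut.coe_degZeroSMulHom, h1, h2]
  change v.ord (galFunGen F₀ τ f) - v.ord f = _
  rw [h3]
  ring

end Generic

/-! ### the level `Γ₁(M)` -/

variable {M : ℕ} [NeZero M]

/-- `KeyLemmaAtOne M ⟹ InertiaPowOne M` (the generators of `FOne M` are integral). -/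
theorem inertiaPowOne_of_keyLemmaAtOne (hKL : KeyLemmaAtOne M) : InertiaPowOne M :=
  fun p hp hpM A hA =>
    inertiaPowGen_of_keyLemma hp hA (isIntGen_FOne A M) (hKL p hp hpM A hA)

/-- **P1**: `InertiaPowOne M ⟹` (IF-G1) `TorsionUnramifiedOne M`. -/
theorem torsionUnramifiedOne_of_inertiaPowOne (h : InertiaPowOne M) :
    TorsionUnramifiedOne M := by
  intro n p hp hndvd A hA σ hσ x hx
  have hpM : ¬ p ∣ M := fun hd => hndvd (Dvd.dvd.mul_right hd n)
  have hpn : ¬ p ∣ n := fun hd => hndvd (Dvd.dvd.mul_left hd M)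
  exact funOne_smul_eq_of_inertiaPowGen (h p hp hpM A hA) hpn hσ x hx

/-- **G-FUN1**: `KeyLemmaAtOne M ⟹` (IF-G1) `TorsionUnramifiedOne M`. -/
theorem torsionUnramifiedOne_of_keyLemmaAtOne (hKL : KeyLemmaAtOne M) :
    TorsionUnramifiedOne M :=
  torsionUnramifiedOne_of_inertiaPowOne (inertiaPowOne_of_keyLemmaAtOne hKL)

end Fermat.Agent.S48WPort
end
end MergeWrap_S48_W_G_Port_FunOne

section MergeWrap_S48_W_G_Port_FunOneAt -- from S48/W/G/Port/FunOneAt.lean

set_option autoImplicit false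

noncomputable section

namespace Fermat.Agent.S48WPort

open ModularCurve AlgebraicCurve HahnSeries Fermat.Agent.F3 Fermat.Agent.F3G
  Fermat.Agent.GaussInt Fermat.Agent.S48W

local notation "Kb" => AlgebraicClosure ℚ
local notation "GK" => (AlgebraicClosure ℚ ≃ₐ[ℚ] AlgebraicClosure ℚ)

section Generic

variable {F₀ : IntermediateField ℚ (LaurentSeries ℚ)}

/-- **P1 at `n` (function form)**: the KEY LEMMA at `A` gives the function form of "inertia at `A` acts
trivially on the prime-to-`p` torsion", for every field generated by series integral at `A`. -/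
theorem inertiaPowGenAt_of_keyLemmaAt {p : ℕ} {A : ValuationSubring Kb} (hp : p.Prime)
    (hA : A.LiesOverPrime p) (hint : IsIntGen A F₀) {n : ℕ} (hn : n ≠ 0)
    (hKL : KeyLemmaGenAt F₀ A n) : InertiaPowGenAt F₀ A n := by
  intro τ hτ f hf D hD
  set G := arithmeticGalois F₀ τ with hG
  have hstab : ∀ y ∈ laurentBaseChange Kb F₀,
      coeffMap ((τ : Kb ≃ₐ[ℚ] Kb) : Kb →+* Kb) y ∈ laurentBaseChange Kb F₀ := fun y hy =>
    coeffMap_mem_laurentBaseChange τ hy
  obtain ⟨c, hc0, hmem, hres⟩ :=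
    exists_const_mul_mem_gaussSub hp hA hint f.2 (fun h => hf (Subtype.ext h))
  -- the normalised function `w = c f`
  set w : laurentBaseChange Kb F₀ := algebraMap Kb (laurentBaseChange Kb F₀) c * f with hw
  have hwcoe : (w : LaurentSeries Kb) =
      algebraMap Kb (LaurentSeries Kb) c * (f : LaurentSeries Kb) := rfl
  have hw0 : w ≠ 0 := mul_ne_zero (by simpa using hc0) hf
  have hwmem : (w : LaurentSeries Kb) ∈ gaussSub A (laurentBaseChange Kb F₀) := hmem
  have hwres : gaussResFun A (laurentBaseChange Kb F₀) (w : LaurentSeries Kb) ≠ 0 := hres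
  -- `τ w`
  have hτcoe : ((G • w : laurentBaseChange Kb F₀) : LaurentSeries Kb) =
      coeffMap ((τ : Kb ≃ₐ[ℚ] Kb) : Kb →+* Kb) (w : LaurentSeries Kb) :=
    coe_arithmeticGalois_smul _ τ w
  have hτmem : ((G • w : laurentBaseChange Kb F₀) : LaurentSeries Kb)
      ∈ gaussSub A (laurentBaseChange Kb F₀) := by
    rw [hτcoe]
    exact coeffMap_mem_gaussSub_of_inertia τ hτ hstab hwmem
  have hτres : gaussResFun A (laurentBaseChange Kb F₀)
      ((G • w : laurentBaseChange Kb F₀) : LaurentSeries Kb) =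
      gaussResFun A (laurentBaseChange Kb F₀) (w : LaurentSeries Kb) := by
    rw [hτcoe]
    exact gaussResFun_inertia τ hτ hstab hwmem
  have hτw0 : G • w ≠ 0 := by simpa using hw0
  -- `g = τ w / w`
  set g : laurentBaseChange Kb F₀ := (G • w) * w⁻¹ with hg
  have hg0 : g ≠ 0 := mul_ne_zero hτw0 (inv_ne_zero hw0)
  have hinvmem : ((w⁻¹ : laurentBaseChange Kb F₀) : LaurentSeries Kb)
      ∈ gaussSub A (laurentBaseChange Kb F₀) := by
    have : ((w⁻¹ : laurentBaseChange Kb F₀) : LaurentSeries Kb) = (w : LaurentSeries Kb)⁻¹ := rfl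
    rw [this]
    exact inv_mem_gaussSub hwmem hwres
  have hgmem : (g : LaurentSeries Kb) ∈ gaussSub A (laurentBaseChange Kb F₀) :=
    (gaussSub A (laurentBaseChange Kb F₀)).mul_mem hτmem hinvmem
  have hgres : gaussResFun A (laurentBaseChange Kb F₀) (g : LaurentSeries Kb) = 1 := by
    have h1 : gaussRes A (laurentBaseChange Kb F₀) (⟨_, hτmem⟩ * ⟨_, hinvmem⟩) =
        gaussRes A (laurentBaseChange Kb F₀) ⟨_, hτmem⟩ *
          gaussRes A (laurentBaseChange Kb F₀) ⟨_, hinvmem⟩ := map_mul _ _ _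
    have h2 : gaussResFun A (laurentBaseChange Kb F₀)
        ((w⁻¹ : laurentBaseChange Kb F₀) : LaurentSeries Kb) =
        (gaussResFun A (laurentBaseChange Kb F₀) (w : LaurentSeries Kb))⁻¹ :=
      gaussResFun_inv hwmem hwres
    have h3 : gaussResFun A (laurentBaseChange Kb F₀) (g : LaurentSeries Kb) =
        gaussResFun A (laurentBaseChange Kb F₀)
            ((G • w : laurentBaseChange Kb F₀) : LaurentSeries Kb) *
          gaussResFun A (laurentBaseChange Kb F₀)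
            ((w⁻¹ : laurentBaseChange Kb F₀) : LaurentSeries Kb) := h1
    rw [h3, hτres, h2, mul_inv_cancel₀ hwres]
  -- divisibility of the divisor of `g`
  have hcF : (algebraMap Kb (laurentBaseChange Kb F₀) c) ≠ 0 := by simpa using hc0
  have hordw : ∀ v : Place Kb (laurentBaseChange Kb F₀), v.ord w = v.ord f := fun v => by
    rw [hw, v.ord_mul hcF hf, place_ord_algebraMap v hc0, zero_add]
  have hDw : ∀ v : Place Kb (laurentBaseChange Kb F₀),
      (n : ℤ) * (D : Divisor Kb (laurentBaseChange Kb F₀)) v = v.ord w := fun v => by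
    rw [hordw, hD]
  have hdvd : ∀ P : Place Kb (laurentBaseChange Kb F₀), (n : ℤ) ∣ P.ord g := by
    intro P
    have h1 := mul_smul_divisor_apply_eq_ord G (n : ℤ) hDw P
    rw [hg, P.ord_mul hτw0 (inv_ne_zero hw0), P.ord_inv, ← h1, ← hDw P]
    exact ⟨(G • (D : Divisor Kb (laurentBaseChange Kb F₀))) P
      - (D : Divisor Kb (laurentBaseChange Kb F₀)) P, by ring⟩
  obtain ⟨h, hh⟩ := hKL g hg0 hdvd hgmem hgres
  -- the constant factor
  have hτc0 : τ c ≠ 0 := by simpa using hc0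
  obtain ⟨b, hb⟩ := IsAlgClosed.exists_pow_nat_eq (c / τ c) (Nat.pos_of_ne_zero hn)
  refine ⟨algebraMap Kb (laurentBaseChange Kb F₀) b * h, ?_⟩
  have hGw : G • w = algebraMap Kb (laurentBaseChange Kb F₀) (τ c) * (G • f) := by
    rw [hw, smul_mul']
    congr 1
    exact SemilinearAut.smul_algebraMap G c
  have hgw : g * w = G • w := by
    rw [hg, mul_assoc, inv_mul_cancel₀ hw0, mul_one]
  have hτcF : algebraMap Kb (laurentBaseChange Kb F₀) (τ c) ≠ 0 := by simpa using hτc0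
  show (algebraMap Kb (laurentBaseChange Kb F₀) b * h) ^ n * f = G • f
  have e1 : algebraMap Kb (laurentBaseChange Kb F₀) (τ c) *
        ((algebraMap Kb (laurentBaseChange Kb F₀) b * h) ^ n * f) =
      algebraMap Kb (laurentBaseChange Kb F₀) (τ c) * (G • f) := by
    rw [← hGw, ← hgw, ← hh, hw, mul_pow, ← map_pow, hb, map_div₀]
    field_simp
  exact mul_left_cancel₀ hτcF e1

/-- **P1 at `n` (classes)**: the function form at `A` gives: the inertia group of `A` acts trivially on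
the `n`-torsion of `Pic⁰(ℚ̄ F₀)`, `p ∤ n`. -/
theorem funOneAt_smul_eq_of_inertiaPowGenAt {A : ValuationSubring Kb} {n : ℕ} (hn : n ≠ 0)
    (h : InertiaPowGenAt F₀ A n) {τ : GK}
    (hτ : τ ∈ A.inertiaSubgroupIn ℚ) (x : Pic0 Kb (laurentBaseChange Kb F₀))
    (hx : n • x = 0) : τ • x = x := by
  have hx' : (n : ℤ) • x = 0 := by rwa [natCast_zsmul]
  obtain ⟨D, f, hf, rfl, hD⟩ := exists_div_of_zsmul_eq_zero (n : ℤ) x hx'
  obtain ⟨u, hu⟩ := h τ hτ f hf D hD
  have hτf : galFunGen F₀ τ f ≠ 0 := by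
    show arithmeticGalois F₀ τ • f ≠ 0
    simpa using hf
  have hu0 : u ≠ 0 := by
    rintro rfl
    rw [zero_pow hn, zero_mul] at hu
    exact hτf hu.symm
  rw [← sub_eq_zero]
  show arithmeticGalois F₀ τ • Pic0.mk D - Pic0.mk D = 0
  rw [SemilinearAut.pic0_smul_mk]
  refine mk_eq_zero_of_mul_eq_ord_pow n hn
    (SemilinearAut.degZeroSMulHom (arithmeticGalois F₀ τ) D - D)
    hu0 fun v => ?_
  have h1 := mul_smul_divisor_apply_eq_ord (arithmeticGalois F₀ τ)
    (n : ℤ) hD v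
  have h2 := hD v
  have h3 : v.ord (galFunGen F₀ τ f) = v.ord (u ^ n) + v.ord f := by
    rw [← hu, v.ord_mul (pow_ne_zero n hu0) hf]
  rw [AddSubgroup.coe_sub, Finsupp.sub_apply, mul_sub, SemilinearAut.coe_degZeroSMulHom, h1, h2]
  change v.ord (galFunGen F₀ τ f) - v.ord f = _
  rw [h3]
  ring

end Generic

/-! ### the level `Γ₁(M)`, torsion order `ℓ` -/

variable {M : ℕ} [NeZero M] {ℓ : ℕ}

/-- `KeyLemmaOneAt M ℓ ⟹ InertiaPowOneAt M ℓ`. -/
theorem inertiaPowOneAt_of_keyLemmaOneAt (hℓ : ℓ ≠ 0) (hKL : KeyLemmaOneAt M ℓ) :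
    InertiaPowOneAt M ℓ :=
  fun p hp hpMℓ A hA =>
    inertiaPowGenAt_of_keyLemmaAt hp hA (isIntGen_FOne A M) hℓ (hKL p hp hpMℓ A hA)

/-- **P1 at `ℓ`**: `InertiaPowOneAt M ℓ ⟹` (IF-G1 at `ℓ`) `TorsionUnramifiedOneAt M ℓ`. -/
theorem torsionUnramifiedOneAt_of_inertiaPowOneAt (hℓ : ℓ ≠ 0) (h : InertiaPowOneAt M ℓ) :
    TorsionUnramifiedOneAt M ℓ := by
  intro p hp hndvd A hA σ hσ x hx
  exact funOneAt_smul_eq_of_inertiaPowGenAt hℓ (h p hp hndvd A hA) hσ x hx

/-- **G-FUN1 at `ℓ`**: `KeyLemmaOneAt M ℓ ⟹` (IF-G1 at `ℓ`) `TorsionUnramifiedOneAt M ℓ`. -/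
theorem torsionUnramifiedOneAt_of_keyLemmaOneAt (hℓ : ℓ ≠ 0) (hKL : KeyLemmaOneAt M ℓ) :
    TorsionUnramifiedOneAt M ℓ :=
  torsionUnramifiedOneAt_of_inertiaPowOneAt hℓ (inertiaPowOneAt_of_keyLemmaOneAt hℓ hKL)

end Fermat.Agent.S48WPort
end
end MergeWrap_S48_W_G_Port_FunOneAt

section MergeWrap_S48_W_G_Port_FunTwo -- from S48/W/G/Port/FunTwo.lean

set_option autoImplicit false
set_option linter.style.haveILetI false

noncomputable section

namespace Fermat.Agent.S48WPort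

open ModularCurve AlgebraicCurve HahnSeries Fermat.Agent.F3G Fermat.Agent.S48W

local notation "Kb" => AlgebraicClosure ℚ
local notation "GK" => (AlgebraicClosure ℚ ≃ₐ[ℚ] AlgebraicClosure ℚ)

/-! ### abstract function fields -/

section Abs

variable {K F : Type*} [Field K] [Field F] [Algebra K F]

/-- the ring homomorphism `f ↦ g • f` of a semilinear automorphism. -/
def funTwoSmulHom (g : SemilinearAut K F) : F →+* F :=
  MulSemiringAction.toRingHom (SemilinearAut K F) F g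

@[simp]
theorem funTwoSmulHom_apply (g : SemilinearAut K F) (f : F) : funTwoSmulHom g f = g • f := rfl

/-- `f ↦ δ (g • f)`. -/
def funTwoCommL (g : SemilinearAut K F) (δ : F ≃ₐ[K] F) : F →+* F :=
  (δ : F →+* F).comp (funTwoSmulHom g)

/-- `f ↦ g • δ f`. -/
def funTwoCommR (g : SemilinearAut K F) (δ : F ≃ₐ[K] F) : F →+* F :=
  (funTwoSmulHom g).comp (δ : F →+* F)

theorem funTwoCommL_apply (g : SemilinearAut K F) (δ : F ≃ₐ[K] F) (f : F) :
    funTwoCommL g δ f = δ (g • f) := rfl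

theorem funTwoCommR_apply (g : SemilinearAut K F) (δ : F ≃ₐ[K] F) (f : F) :
    funTwoCommR g δ f = g • δ f := rfl

theorem funTwoComm_algebraMap (g : SemilinearAut K F) (δ : F ≃ₐ[K] F) (c : K) :
    funTwoCommL g δ (algebraMap K F c) = funTwoCommR g δ (algebraMap K F c) := by
  rw [funTwoCommL_apply, funTwoCommR_apply, SemilinearAut.smul_algebraMap, δ.commutes,
    δ.commutes, SemilinearAut.smul_algebraMap]

theorem funTwoComm_of_fixed (g : SemilinearAut K F) (δ : F ≃ₐ[K] F) {a b : F}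
    (ha : g • a = a) (hb : g • b = b) (hab : δ a = b) :
    funTwoCommL g δ a = funTwoCommR g δ a := by
  rw [funTwoCommL_apply, funTwoCommR_apply, ha, hab, hb]

theorem funTwoComm_apply_of_eq (g : SemilinearAut K F) (δ : F ≃ₐ[K] F)
    (h : funTwoCommL g δ = funTwoCommR g δ) (f : F) : δ (g • f) = g • δ f :=
  congrArg (fun Φ : F →+* F => Φ f) h

/-- The divisor of `δ f` is `δ • div f` (torsion form), for a `K`-automorphism `δ`. -/
theorem funTwo_mul_smul_divisor_apply_eq_ord (δ : F ≃ₐ[K] F) (n : ℤ) {D : Divisor K F} {f : F}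
    (hD : ∀ v : Place K F, n * D v = v.ord f) (w : Place K F) :
    n * (δ • D) w = w.ord (δ f) := by
  rw [Divisor.smul_apply, hD]
  have h := Place.ord_smul δ (δ⁻¹ • w) f
  rw [smul_inv_smul] at h
  exact h.symm

/-- **abstract form of P3 (b)**: the quadratic relation on an `n`-torsion class from the function
form of the twisted Eichler-Shimura relation. -/
theorem funTwo_quadratic_abs (g : SemilinearAut K F) (δ : F ≃ₐ[K] F)
    (T : Pic0 K F → Pic0 K F) (Tf : F → F) (n : ℕ) (hn : n ≠ 0) (p : ℕ)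
    (hcomm : ∀ f : F, δ (g • f) = g • δ f)
    (hT0 : ∀ f : F, f ≠ 0 → Tf f ≠ 0)
    (hT : ∀ (D : Divisor.degZero (K := K) (F := F)) (f : F), f ≠ 0 →
      (∀ v, (n : ℤ) * (D : Divisor K F) v = v.ord f) →
      ∃ E : Divisor.degZero (K := K) (F := F), T (Pic0.mk D) = Pic0.mk E ∧
        ∀ v, (n : ℤ) * (E : Divisor K F) v = v.ord (Tf f))
    (g' : SemilinearAut K F) (hg' : g' = g⁻¹)
    (hFP : ∀ f : F, f ≠ 0 → ∀ D : Divisor.degZero (K := K) (F := F),
      (∀ v, (n : ℤ) * (D : Divisor K F) v = v.ord f) →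
        ∃ u : F, u ^ n * Tf f = g • (δ f) * (g' • f) ^ p)
    (x : Pic0 K F) (hx : n • x = 0) :
    g • g • (δ • x) - T (g • x) + p • x = 0 := by
  subst hg'
  have hx' : (n : ℤ) • x = 0 := by rwa [natCast_zsmul]
  obtain ⟨D, f, hf, rfl, hD⟩ := exists_div_of_zsmul_eq_zero (n : ℤ) x hx'
  -- the translated data
  have hf' : g • f ≠ 0 := by simpa using hf
  have hD' : ∀ v, (n : ℤ) * (SemilinearAut.degZeroSMulHom g D : Divisor K F) v
      = v.ord (g • f) :=
    fun v => mul_smul_divisor_apply_eq_ord g (n : ℤ) hD v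
  obtain ⟨u, hu⟩ := hFP (g • f) hf' (SemilinearAut.degZeroSMulHom g D) hD'
  rw [inv_smul_smul, hcomm f] at hu
  -- the classes
  have hDδ : ∀ v, (n : ℤ) * (Pic0.degZeroSMulHom δ D : Divisor K F) v = v.ord (δ f) :=
    fun v => funTwo_mul_smul_divisor_apply_eq_ord δ (n : ℤ) hD v
  have hD₁ : ∀ v, (n : ℤ) *
      (SemilinearAut.degZeroSMulHom g (Pic0.degZeroSMulHom δ D) : Divisor K F) v
        = v.ord (g • δ f) :=
    fun v => mul_smul_divisor_apply_eq_ord g (n : ℤ) hDδ v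
  have hD₂ : ∀ v, (n : ℤ) *
      (SemilinearAut.degZeroSMulHom g
        (SemilinearAut.degZeroSMulHom g (Pic0.degZeroSMulHom δ D)) : Divisor K F) v
      = v.ord (g • (g • δ f)) :=
    fun v => mul_smul_divisor_apply_eq_ord g (n : ℤ) hD₁ v
  have hgg : g • (g • δ f) ≠ 0 := by simpa using hf
  obtain ⟨E, hE, hEord⟩ := hT (SemilinearAut.degZeroSMulHom g D) (g • f) hf' hD'
  rw [Pic0.smul_mk δ D, SemilinearAut.pic0_smul_mk g, SemilinearAut.pic0_smul_mk g,
    SemilinearAut.pic0_smul_mk g, hE]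
  exact mk_sub_add_nsmul_eq_zero_of_pow n hn p _ E D hgg (hT0 _ hf') hf hD₂ hEord hD hu

end Abs

/-! ### an extensionality lemma -/

section Ext

variable {L : Type*} [Field L] [Algebra ℚ L]

/-- Two ring homomorphisms from `L · F₀`, `F₀ = ℚ(S)`, to a field that agree on the constants
and on the generators `S` are equal. -/
theorem funTwo_ringHom_ext {F₀ : IntermediateField ℚ (LaurentSeries ℚ)}
    (S : Set (LaurentSeries ℚ)) (hS : ∀ x ∈ S, x ∈ F₀)
    (hgen : ∀ z ∈ F₀, z ∈ IntermediateField.adjoin ℚ S) {R : Type*} [Field R]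
    (Φ₁ Φ₂ : ↥(laurentBaseChange L F₀) →+* R)
    (hc : ∀ c : L, Φ₁ (algebraMap L _ c) = Φ₂ (algebraMap L _ c))
    (hg : ∀ x ∈ S, ∀ hx : coeffEmb L x ∈ laurentBaseChange L F₀,
      Φ₁ ⟨coeffEmb L x, hx⟩ = Φ₂ ⟨coeffEmb L x, hx⟩) :
    Φ₁ = Φ₂ := by
  -- first on the rational function field
  have hrat : ∀ z : LaurentSeries ℚ, z ∈ IntermediateField.adjoin ℚ S →
      ∃ h : coeffEmb L z ∈ laurentBaseChange L F₀,
        Φ₁ ⟨coeffEmb L z, h⟩ = Φ₂ ⟨coeffEmb L z, h⟩ := by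
    intro z hz
    induction hz using IntermediateField.adjoin_induction with
    | mem x hx =>
      exact ⟨coeffEmb_mem_laurentBaseChange L (hS x hx), hg x hx _⟩
    | algebraMap c =>
      have h1 : coeffEmb L (algebraMap ℚ (LaurentSeries ℚ) c) =
          algebraMap L (LaurentSeries L) (algebraMap ℚ L c) := by
        rw [eq_ratCast, map_ratCast, eq_ratCast, map_ratCast]
      have hm : coeffEmb L (algebraMap ℚ (LaurentSeries ℚ) c) ∈ laurentBaseChange L F₀ := by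
        rw [h1]
        exact (laurentBaseChange L F₀).algebraMap_mem _
      refine ⟨hm, ?_⟩
      have h3 : (⟨coeffEmb L (algebraMap ℚ (LaurentSeries ℚ) c), hm⟩ : ↥(laurentBaseChange L F₀))
          = algebraMap L _ (algebraMap ℚ L c) := Subtype.ext h1
      rw [h3]
      exact hc _
    | add x y _ _ hx hy =>
      obtain ⟨h1, e1⟩ := hx
      obtain ⟨h2, e2⟩ := hy
      refine ⟨by rw [map_add]; exact add_mem h1 h2, ?_⟩
      have : (⟨coeffEmb L (x + y), by rw [map_add]; exact add_mem h1 h2⟩ :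
          ↥(laurentBaseChange L F₀)) = ⟨_, h1⟩ + ⟨_, h2⟩ := Subtype.ext (map_add _ _ _)
      rw [this, map_add, map_add, e1, e2]
    | inv x _ hx =>
      obtain ⟨h1, e1⟩ := hx
      refine ⟨by rw [map_inv₀]; exact inv_mem h1, ?_⟩
      have : (⟨coeffEmb L x⁻¹, by rw [map_inv₀]; exact inv_mem h1⟩ :
          ↥(laurentBaseChange L F₀)) = (⟨_, h1⟩ : ↥(laurentBaseChange L F₀))⁻¹ :=
        Subtype.ext (map_inv₀ _ _)
      rw [this, map_inv₀, map_inv₀, e1]
    | mul x y _ _ hx hy =>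
      obtain ⟨h1, e1⟩ := hx
      obtain ⟨h2, e2⟩ := hy
      refine ⟨by rw [map_mul]; exact mul_mem h1 h2, ?_⟩
      have : (⟨coeffEmb L (x * y), by rw [map_mul]; exact mul_mem h1 h2⟩ :
          ↥(laurentBaseChange L F₀)) = ⟨_, h1⟩ * ⟨_, h2⟩ := Subtype.ext (map_mul _ _ _)
      rw [this, map_mul, map_mul, e1, e2]
  have hall : ∀ x : LaurentSeries L, x ∈ laurentBaseChange L F₀ →
      ∃ h : x ∈ laurentBaseChange L F₀, Φ₁ ⟨x, h⟩ = Φ₂ ⟨x, h⟩ := by
    intro x hx
    rw [mem_laurentBaseChange_iff] at hx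
    induction hx using Subfield.closure_induction with
    | mem y hy =>
      rcases hy with ⟨a, rfl⟩ | ⟨z, hz, rfl⟩
      · exact ⟨(laurentBaseChange L F₀).algebraMap_mem _, hc a⟩
      · exact hrat z (hgen z hz)
    | one => exact ⟨one_mem _, by
        have : (⟨1, one_mem _⟩ : ↥(laurentBaseChange L F₀)) = 1 := rfl
        rw [this, map_one, map_one]⟩
    | add x y _ _ hx hy =>
      obtain ⟨h1, e1⟩ := hx
      obtain ⟨h2, e2⟩ := hy
      refine ⟨add_mem h1 h2, ?_⟩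
      have : (⟨x + y, add_mem h1 h2⟩ : ↥(laurentBaseChange L F₀)) = ⟨_, h1⟩ + ⟨_, h2⟩ := rfl
      rw [this, map_add, map_add, e1, e2]
    | neg x _ hx =>
      obtain ⟨h1, e1⟩ := hx
      refine ⟨neg_mem h1, ?_⟩
      have : (⟨-x, neg_mem h1⟩ : ↥(laurentBaseChange L F₀)) = -⟨_, h1⟩ := rfl
      rw [this, map_neg, map_neg, e1]
    | inv x _ hx =>
      obtain ⟨h1, e1⟩ := hx
      refine ⟨inv_mem h1, ?_⟩
      have : (⟨x⁻¹, inv_mem h1⟩ : ↥(laurentBaseChange L F₀))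
          = (⟨_, h1⟩ : ↥(laurentBaseChange L F₀))⁻¹ := rfl
      rw [this, map_inv₀, map_inv₀, e1]
    | mul x y _ _ hx hy =>
      obtain ⟨h1, e1⟩ := hx
      obtain ⟨h2, e2⟩ := hy
      refine ⟨mul_mem h1 h2, ?_⟩
      have : (⟨x * y, mul_mem h1 h2⟩ : ↥(laurentBaseChange L F₀)) = ⟨_, h1⟩ * ⟨_, h2⟩ := rfl
      rw [this, map_mul, map_mul, e1, e2]
  ext ⟨x, hx⟩
  obtain ⟨_, e⟩ := hall x hx
  exact e

/-- the coefficientwise Galois action fixes the series with rational coefficients. -/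
theorem funTwo_arithmeticGalois_smul_coeffEmb (F₀ : IntermediateField ℚ (LaurentSeries ℚ))
    (σ : L ≃ₐ[ℚ] L) (x : LaurentSeries ℚ) (hx : coeffEmb L x ∈ laurentBaseChange L F₀) :
    arithmeticGalois F₀ σ • (⟨coeffEmb L x, hx⟩ : laurentBaseChange L F₀) = ⟨coeffEmb L x, hx⟩ :=
  Subtype.ext (by
    rw [coe_arithmeticGalois_smul]
    exact coeffMap_coeffEmb σ x)

end Ext


/-! ### automorphisms defined over `ℚ` commute with the Galois action -/

section GalCommGen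

variable {L : Type*} [Field L] [Algebra ℚ L] {F₀ : IntermediateField ℚ (LaurentSeries ℚ)}

/-- an `L`-automorphism of `L · F₀`, `F₀ = ℚ(S)`, which maps the generators `S` to series with
rational coefficients commutes with the coefficientwise action of `Aut(L/ℚ)`: equality of ring
homomorphisms. -/
theorem funTwo_comm_eq (S : Set (LaurentSeries ℚ)) (hS : ∀ x ∈ S, x ∈ F₀)
    (hgen : ∀ z ∈ F₀, z ∈ IntermediateField.adjoin ℚ S)
    (δ : laurentBaseChange L F₀ ≃ₐ[L] laurentBaseChange L F₀)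
    (hδ : ∀ x ∈ S, ∀ hx : coeffEmb L x ∈ laurentBaseChange L F₀,
      ∃ (y : LaurentSeries ℚ) (hy : coeffEmb L y ∈ laurentBaseChange L F₀),
        δ ⟨coeffEmb L x, hx⟩ = ⟨coeffEmb L y, hy⟩)
    (σ : L ≃ₐ[ℚ] L) :
    funTwoCommL (arithmeticGalois F₀ σ) δ = funTwoCommR (arithmeticGalois F₀ σ) δ :=
  funTwo_ringHom_ext S hS hgen _ _ (fun c => funTwoComm_algebraMap _ δ c)
    (fun x hx hmem => by
      obtain ⟨y, hy, hxy⟩ := hδ x hx hmem
      exact funTwoComm_of_fixed _ δ (funTwo_arithmeticGalois_smul_coeffEmb F₀ σ x hmem)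
        (funTwo_arithmeticGalois_smul_coeffEmb F₀ σ y hy) hxy)

end GalCommGen

/-- the diamond automorphisms: equality of ring homomorphisms. -/
theorem funTwo_comm_eq_of_isDiamond {M : ℕ} [NeZero M] {d : (ZMod M)ˣ}
    {δ : FOneBar M ≃ₐ[Kb] FOneBar M} (hδ : IsDiamond M d δ) (σ : GK) :
    funTwoCommL (arithmeticGalois (FOne M) σ) δ = funTwoCommR (arithmeticGalois (FOne M) σ) δ := by
  refine funTwo_comm_eq (L := Kb) (F₀ := FOne M) (genOne M)
    (fun x hx => IntermediateField.subset_adjoin ℚ _ hx) (fun z hz => hz) δ ?_ σ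
  rintro x (hx | ⟨a, ha, rfl⟩) hmem
  · exact ⟨x, hmem, hδ.1 x hx hmem⟩
  · have hda : (d : ZMod M) * a ≠ 0 := by
      intro h0
      apply ha
      have := congrArg (fun z => ((d⁻¹ : (ZMod M)ˣ) : ZMod M) * z) h0
      simpa using this
    have h₂ : coeffEmb Kb (fricke M ((d : ZMod M) * a)) ∈ FOneBar M :=
      coeffEmb_mem_laurentBaseChange Kb (fricke_mem M hda)
    exact ⟨_, h₂, hδ.2 a ha hmem h₂⟩

/-- **P3 (a)**: a diamond automorphism commutes with the coefficientwise action of `G_ℚ`. -/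
theorem galComm_of_isDiamond {M : ℕ} [NeZero M] {d : (ZMod M)ˣ}
    {δ : FOneBar M ≃ₐ[Kb] FOneBar M} (hδ : IsDiamond M d δ) : GalComm (FOne M) δ :=
  fun σ f => funTwoComm_apply_of_eq _ δ (funTwo_comm_eq_of_isDiamond hδ σ) f

/-! ### norm description of `T_p` -/

section NormDesc

variable {L : Type*} [Field L] [Algebra ℚ L]
variable {F₀ F₁ : IntermediateField ℚ (LaurentSeries ℚ)}

/-- `T f := Norm (f(q^p))` over an arbitrary field of coefficients. -/
def funTwoHeckeFun (L : Type*) [Field L] [Algebra ℚ L] (h : F₀ ≤ F₁) (p : ℕ) [NeZero p]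
    (hF : ∀ y ∈ F₀, qExpand ℚ p y ∈ F₁) :
    laurentBaseChange L F₀ →* laurentBaseChange L F₀ :=
  (normAlong (qSeriesAlpha L h)).comp (qSeriesBeta L p hF : _ →* _)

theorem funTwoHeckeFun_eq_qSeriesHeckeFun (h : F₀ ≤ F₁) (p : ℕ) [NeZero p]
    (hF : ∀ y ∈ F₀, qExpand ℚ p y ∈ F₁) :
    funTwoHeckeFun Kb h p hF = qSeriesHeckeFun h p hF := rfl

theorem funTwoHeckeFun_ne_zero (h : F₀ ≤ F₁) (p : ℕ) [NeZero p]
    (hF : ∀ y ∈ F₀, qExpand ℚ p y ∈ F₁) (hI : QSeriesInputs L h p hF)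
    {f : laurentBaseChange L F₀} (hf : f ≠ 0) : funTwoHeckeFun L h p hF f ≠ 0 := by
  obtain ⟨hα, hβ, hP, hfin, hFI, hN⟩ := hI
  have hβf : qSeriesBeta L p hF f ≠ 0 := by simpa using hf
  exact normAlong_ne_zero _ hfin hβf

/-- **Norm description of `T_p`** (port of `F3G.heckeOperatorAlong_mk_of_zsmul_eq_div`). -/
theorem funTwo_qSeriesHecke_mk_of_zsmul_eq_div (h : F₀ ≤ F₁) (p : ℕ) [NeZero p]
    (hF : ∀ y ∈ F₀, qExpand ℚ p y ∈ F₁) (hI : QSeriesInputs L h p hF)
    (D : Divisor.degZero (K := L) (F := laurentBaseChange L F₀))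
    (n : ℤ) {f : laurentBaseChange L F₀} (hf : f ≠ 0)
    (hD : ∀ v, n * (D : Divisor L _) v = v.ord f) :
    ∃ E : Divisor.degZero (K := L) (F := laurentBaseChange L F₀),
      qSeriesHecke L h p hF (Pic0.mk D) = Pic0.mk E ∧
        ∀ v, n * (E : Divisor L _) v = v.ord (funTwoHeckeFun L h p hF f) := by
  have hI' := hI
  obtain ⟨hα, hβ, hP, hfin, hFI, hN⟩ := hI
  haveI := hP
  refine ⟨Pic0.degZeroCorrespondence (qSeriesBeta L p hF) (qSeriesAlpha L h) hβ hα hFI D,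
    ?_, fun v => ?_⟩
  · unfold qSeriesHecke
    rw [dif_pos hI']
    rfl
  · exact zsmul_correspondence_apply_eq_ord_norm _ _ hβ hα hfin hN hf n hD v

end NormDesc

/-! ### (IF-G2) from the function form -/

/-- the quadratic relation at level `Γ₁(M)` for one Frobenius `σ`, one diamond automorphism `δ`
and one torsion order `n`. -/
theorem funTwo_quadratic_one {M : ℕ} [NeZero M] (p : ℕ) (hp : p.Prime) [NeZero p]
    (hin : HeckeInputsOne M p) {d : (ZMod M)ˣ} (δ : FOneBar M ≃ₐ[Kb] FOneBar M)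
    (hδ : IsDiamond M d δ) (σ : GK) (n : ℕ) (hn : n ≠ 0)
    (hFP : ∀ f : FOneBar M, f ≠ 0 → ∀ D : Divisor.degZero (K := Kb) (F := FOneBar M),
      (∀ v, (n : ℤ) * (D : Divisor Kb (FOneBar M)) v = v.ord f) →
        ∃ u : FOneBar M,
          u ^ n * qSeriesHeckeFun (FOne_le_FOneP M p) p (fun _ hy => qExpand_mem_FOneP M p hy) f
            = galFunGen (FOne M) σ (δ f) * galFunGen (FOne M) σ⁻¹ f ^ p)
    (x : JOne M) (hx : n • x = 0) :
    σ • σ • (δ • x) - heckeOne M ⟨p, hp⟩ (σ • x) + p • x = 0 :=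
  funTwo_quadratic_abs (arithmeticGalois (FOne M) σ) δ (fun y => heckeOne M ⟨p, hp⟩ y)
    (fun f => qSeriesHeckeFun (FOne_le_FOneP M p) p (fun _ hy => qExpand_mem_FOneP M p hy) f)
    n hn p (fun f => galComm_of_isDiamond hδ σ f)
    (fun _ hf => funTwoHeckeFun_ne_zero (L := Kb) (FOne_le_FOneP M p) p
      (fun _ hy => qExpand_mem_FOneP M p hy) hin hf)
    (fun D _ hf hD => funTwo_qSeriesHecke_mk_of_zsmul_eq_div (L := Kb) (FOne_le_FOneP M p) p
      (fun _ hy => qExpand_mem_FOneP M p hy) hin D (n : ℤ) hf hD)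
    (arithmeticGalois (FOne M) σ⁻¹) (map_inv (arithmeticGalois (FOne M)) σ)
    hFP x hx

/-- the diamond operator is the action of any diamond automorphism. -/
theorem funTwo_diamondOne_apply {M : ℕ} [NeZero M] (d : (ZMod M)ˣ)
    (hdia : ∃ δ : FOneBar M ≃ₐ[Kb] FOneBar M, IsDiamond M d δ) (x : JOne M) :
    diamondOne M d x = hdia.choose • x := by
  unfold diamondOne
  rw [dif_pos hdia]
  rfl

/-- **P3 (b) at `ℓ`**: the function form of the twisted Eichler-Shimura relation at the torsion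
order `ℓ` gives (IF-G2 at `ℓ`). -/
theorem torsionFrobQuadraticOneAt_of_frobPowOneAt {M : ℕ} [NeZero M] {ℓ : ℕ} (hℓ : ℓ ≠ 0)
    (hFP : FrobPowOneAt M ℓ)
    (hin : ∀ p : Nat.Primes,
      (haveI : NeZero (p : ℕ) := ⟨p.2.ne_zero⟩; HeckeInputsOne M p))
    (hdia : ∀ d : (ZMod M)ˣ, ∃ δ : FOneBar M ≃ₐ[Kb] FOneBar M, IsDiamond M d δ) :
    TorsionFrobQuadraticOneAt M ℓ := by
  intro p hp hpM hpℓ A hA σ hσ x hx
  haveI : NeZero p := ⟨hp.ne_zero⟩
  rw [funTwo_diamondOne_apply _ (hdia (ZMod.unitOfCoprime p hpM))]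
  exact funTwo_quadratic_one p hp (hin ⟨p, hp⟩) _ (hdia (ZMod.unitOfCoprime p hpM)).choose_spec
    σ ℓ hℓ (fun f hf D hD => hFP p hp hpM hpℓ _ (hdia (ZMod.unitOfCoprime p hpM)).choose_spec
      A hA σ hσ f hf D hD) x hx

/-- **P3 (b)**: the function form of the twisted Eichler-Shimura relation gives (IF-G2). -/
theorem torsionFrobQuadraticOne_of_frobPowOne {M : ℕ} [NeZero M] (hFP : FrobPowOne M)
    (hin : ∀ p : Nat.Primes,
      (haveI : NeZero (p : ℕ) := ⟨p.2.ne_zero⟩; HeckeInputsOne M p))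
    (hdia : ∀ d : (ZMod M)ˣ, ∃ δ : FOneBar M ≃ₐ[Kb] FOneBar M, IsDiamond M d δ) :
    TorsionFrobQuadraticOne M := by
  intro n p hp hpM hndvd A hA σ hσ x hx
  haveI : NeZero p := ⟨hp.ne_zero⟩
  have hn : n ≠ 0 := by
    rintro rfl
    exact hndvd (dvd_zero p)
  rw [funTwo_diamondOne_apply _ (hdia (ZMod.unitOfCoprime p hpM))]
  exact funTwo_quadratic_one p hp (hin ⟨p, hp⟩) _ (hdia (ZMod.unitOfCoprime p hpM)).choose_spec
    σ n hn (fun f hf D hD => hFP p hp hpM _ (hdia (ZMod.unitOfCoprime p hpM)).choose_spec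
      A hA n hndvd σ hσ f hf D hD) x hx

end Fermat.Agent.S48WPort
end
end MergeWrap_S48_W_G_Port_FunTwo

section MergeWrap_S48_W_G_Port_KeyAsm -- from S48/W/G/Port/KeyAsm.lean

set_option autoImplicit false
set_option synthInstance.maxHeartbeats 400000
set_option maxHeartbeats 1000000
set_option linter.style.haveILetI false

noncomputable section

namespace Fermat.Agent.S48WPort

open ModularCurve AlgebraicCurve IntermediateField Fermat.Agent.RR Fermat.Agent.Deuring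
  Fermat.Agent.GaussInt Fermat.Agent.S48WG

local notation "Kb" => AlgebraicClosure ℚ

variable {A : ValuationSubring Kb} {F₀ : IntermediateField ℚ (LaurentSeries ℚ)} {p : ℕ}

/-- (R3) for the abstract residue field: residues of the Gauss ring lie in `resField A F₀`. -/
theorem keyAsm_hR3 (A : ValuationSubring Kb) (F₀ : IntermediateField ℚ (LaurentSeries ℚ)) :
    ∀ f ∈ gaussSub A (laurentBaseChange Kb F₀),
      gaussResFun A (laurentBaseChange Kb F₀) f ∈ resField A F₀ := fun f hf =>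
  IntermediateField.subset_adjoin _ _ ⟨f, hf, rfl⟩

/-- the Gauss valuation of `F = ℚ̄ F₀` at `A`, with residue field `resField A F₀`, as a
`Deuring.ValSetup`. -/
def keyAsmSetup (h : GaussHyp A F₀ p) (hsurj : ResSurj A F₀)
    (hF : IsRRField Kb ↥(laurentBaseChange Kb F₀))
    (hFk : IsRRField (IsLocalRing.ResidueField A) ↥(resField A F₀)) :
    ValSetup Kb ↥(laurentBaseChange Kb F₀) (IsLocalRing.ResidueField A) ↥(resField A F₀) :=
  gaussValSetup h (resField A F₀) (keyAsm_hR3 A F₀) hsurj hF hFk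

theorem keyAsmSetup_red (h : GaussHyp A F₀ p) (hsurj : ResSurj A F₀)
    (hF : IsRRField Kb ↥(laurentBaseChange Kb F₀))
    (hFk : IsRRField (IsLocalRing.ResidueField A) ↥(resField A F₀))
    {x : LaurentSeries Kb} (hx : x ∈ gaussSub A (laurentBaseChange Kb F₀)) :
    (keyAsmSetup h hsurj hF hFk).red (barElt hx) = resElt hx := by
  apply Subtype.ext
  exact coe_gaussValSetup_red h (resField A F₀) (keyAsm_hR3 A F₀) hsurj hF hFk
    (f := barElt hx) hx

/-- **seat P2**: the KEY LEMMA at the place `A` from the good reduction input. -/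
theorem keyLemmaGen_of_redInput (hp : p.Prime) (hA : A.LiesOverPrime p) (hint : IsIntGen A F₀)
    (hred : RedInput A F₀) : KeyLemmaGen F₀ p A := by
  intro n hpn g _ hdiv hgO hgres
  haveI : IsAlgClosed (IsLocalRing.ResidueField A) := isAlgClosed_residue A
  haveI : Infinite (IsLocalRing.ResidueField A) := infinite_residue A
  obtain ⟨hF, hFk, hsurj, hgen, x, hx, hxt, hxfd, hyt, hyfd, hysep, hle⟩ := hred
  have h : GaussHyp A F₀ p := ⟨hp, hA, hint⟩
  set S := keyAsmSetup h hsurj hF hFk with hS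
  have hredx : S.red (barElt hx) = resElt hx := keyAsmSetup_red h hsurj hF hFk hx
  have hn0 : ((n : ℕ) : Kb) ≠ 0 :=
    Nat.cast_ne_zero.mpr (fun h0 => hpn (h0 ▸ dvd_zero p))
  have hnA : ((n : Kb))⁻¹ ∈ S.A := natCast_inv_mem_of_not_dvd A hp hA hpn
  have hgO' : g ∈ S.Ov := hgO
  have hρ : S.ρ ⟨g, hgO'⟩ = 1 := Subtype.ext hgres
  have hxO : barElt hx ∈ S.Ov := hx
  have hyt' : Transcendental (IsLocalRing.ResidueField A) (S.red (barElt hx)) := by
    rw [hredx]; exact hyt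
  have hyfd' : FiniteDimensional (IsLocalRing.ResidueField A)⟮S.red (barElt hx)⟯
      ↥(resField A F₀) := by
    rw [hredx]; exact hyfd
  have hysep' : Algebra.IsSeparable (IsLocalRing.ResidueField A)⟮S.red (barElt hx)⟯
      ↥(resField A F₀) := by
    rw [hredx]; exact hysep
  have hle' : Divisor.degree (poleDiv S.hF (barElt hx)) ≤
      Divisor.degree (poleDiv S.hFk (S.red (barElt hx))) := by
    haveI := hxfd
    rw [Fermat.Agent.RRHur.degree_poleDiv_eq_finrank S.hF hxt,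
      Fermat.Agent.RRHur.degree_poleDiv_eq_finrank S.hFk hyt']
    rw [hredx]
    exact_mod_cast hle
  exact Fermat.Agent.S18Key.exists_pow_eq_of_valSetup S
    (hasLattice_gaussValSetup h (resField A F₀) (keyAsm_hR3 A F₀) hsurj hF hFk) hgen
    (fun r hpush hGR hdeg =>
      Fermat.Agent.S18Key.nonempty_baseFn S r hpush hGR hdeg (barElt hx) hxO hyt' hle')
    n hn0 hnA g hgO' hρ hdiv

/-- the KEY LEMMA at level `Γ₁(M)` from the deliverable of G-RED. -/
theorem keyLemmaAtOne_of_goodRedOne (M : ℕ) [NeZero M]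
    (h : GoodRedOne M) : KeyLemmaAtOne M := fun p hp hpM A hA =>
  keyLemmaGen_of_redInput hp hA (Fermat.Agent.S48W.isIntGen_FOne A M) (h p hp hpM A hA)

end Fermat.Agent.S48WPort
end
end MergeWrap_S48_W_G_Port_KeyAsm

section MergeWrap_S48_W_G_Port_FrobAsm -- from S48/W/G/Port/FrobAsm.lean

set_option autoImplicit false
set_option linter.style.haveILetI false
set_option linter.unusedSectionVars false

noncomputable section

namespace Fermat.Agent.S48WPort

open ModularCurve AlgebraicCurve HahnSeries Fermat.Agent.F3G Fermat.Agent.GaussInt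
  Fermat.Agent.Kronecker Fermat.Agent.GaussIntFP Fermat.Agent.S48W

local notation "Kb" => AlgebraicClosure ℚ
local notation "GK" => (AlgebraicClosure ℚ ≃ₐ[ℚ] AlgebraicClosure ℚ)

variable {F₀ F₁ : IntermediateField ℚ (LaurentSeries ℚ)}

/-! ### GEN-PRES -/

/-- **GEN-PRES**: an element `f` of `F` that is a quotient `U₁ / U₂` of series with coefficients
in `A`, `U₂` primitive, lies in the Gauss ring and has residue `Ū₁ / Ū₂` (the series `U₁`, `U₂`
need NOT lie in `F`). -/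
theorem frobAsm_genPres {p : ℕ} (hp : p.Prime) {A : ValuationSubring Kb}
    (hA : A.LiesOverPrime p) (hInt : IsIntGen A F₀) {f : LaurentSeries Kb}
    (hf : f ∈ laurentBaseChange Kb F₀) (U₁ U₂ : LaurentSeries A)
    (hU : f * emb A U₂ = emb A U₁) (hU₂ : red A U₂ ≠ 0) :
    f ∈ gaussSub A (laurentBaseChange Kb F₀) ∧
      gaussResFun A (laurentBaseChange Kb F₀) f = red A U₁ / red A U₂ := by
  -- the case of an element of the Gauss ring
  have key : ∀ V₁ V₂ : LaurentSeries A, IsPres A (laurentBaseChange Kb F₀) f V₁ V₂ →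
      gaussResFun A (laurentBaseChange Kb F₀) f = red A U₁ / red A U₂ := by
    intro V₁ V₂ hV
    rw [gaussResFun_eq hV, div_eq_div_iff hV.prim hU₂]
    have h1 : emb A (V₁ * U₂) = emb A (U₁ * V₂) := by
      rw [map_mul, map_mul, ← hV.eq, ← hU]
      ring
    have h2 : V₁ * U₂ = U₁ * V₂ := emb_injective A h1
    rw [← map_mul, ← map_mul, h2]
  have hmem : f ∈ gaussSub A (laurentBaseChange Kb F₀) := by
    rcases mem_or_inv_mem_gaussSub hp hA hInt hf with h | h
    · exact h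
    · by_cases hf0 : f = 0
      · rw [hf0]
        exact zero_mem _
      obtain ⟨V₁, V₂, hV⟩ := h
      -- `f⁻¹ = V₁ / V₂`, so `V₂ U₂ = U₁ V₁`
      have h1 : emb A (V₂ * U₂) = emb A (U₁ * V₁) := by
        rw [map_mul, map_mul, ← hV.eq, ← hU]
        field_simp
      have h2 : V₂ * U₂ = U₁ * V₁ := emb_injective A h1
      have h3 : red A V₂ * red A U₂ = red A U₁ * red A V₁ := by
        rw [← map_mul, ← map_mul, h2]
      have hV₁ : red A V₁ ≠ 0 := by
        intro h0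
        rw [h0, mul_zero] at h3
        exact mul_ne_zero hV.prim hU₂ h3
      have hres : gaussResFun A (laurentBaseChange Kb F₀) f⁻¹ ≠ 0 := by
        rw [gaussResFun_eq hV]
        exact div_ne_zero hV₁ hV.prim
      have := inv_mem_gaussSub hV.mem_gaussSub hres
      rwa [inv_inv] at this
  obtain ⟨V₁, V₂, hV⟩ := hmem
  exact ⟨hV.mem_gaussSub, key V₁ V₂ hV⟩

/-- a unit of the Gauss ring has nonzero residue. -/
theorem frobAsm_res_ne_zero {A : ValuationSubring Kb} {F : IntermediateField Kb (LaurentSeries Kb)}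
    {f : LaurentSeries Kb} (hf : f ∈ gaussSub A F) (hinv : f⁻¹ ∈ gaussSub A F) (hf0 : f ≠ 0) :
    gaussResFun A F f ≠ 0 := by
  intro h0
  have h1 : gaussRes A F (⟨f, hf⟩ * ⟨f⁻¹, hinv⟩) = 1 := by
    have : (⟨f, hf⟩ * ⟨f⁻¹, hinv⟩ : gaussSub A F) = 1 := Subtype.ext (mul_inv_cancel₀ hf0)
    rw [this, map_one]
  rw [map_mul] at h1
  have h2 : gaussRes A F ⟨f, hf⟩ = 0 := h0
  rw [h2, zero_mul] at h1
  exact zero_ne_one h1

/-! ### the coefficientwise Galois action -/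

theorem frobAsm_gal_mul (σ : GK) (x y : laurentBaseChange Kb F₀) :
    galFunGen F₀ σ (x * y) = galFunGen F₀ σ x * galFunGen F₀ σ y :=
  smul_mul' _ _ _

theorem frobAsm_gal_ne_zero (σ : GK) {x : laurentBaseChange Kb F₀} (hx : x ≠ 0) :
    galFunGen F₀ σ x ≠ 0 := by
  intro h0
  apply hx
  have h1 : galFunGen F₀ σ x = galFunGen F₀ σ 0 := by
    rw [h0]
    exact (smul_zero _).symm
  exact MulAction.injective _ h1

theorem frobAsm_gal_algebraMap (σ : GK) (c : Kb) :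
    galFunGen F₀ σ (algebraMap Kb (laurentBaseChange Kb F₀) c) =
      algebraMap Kb (laurentBaseChange Kb F₀) (σ c) :=
  SemilinearAut.smul_algebraMap _ c

theorem frobAsm_coe_gal (σ : GK) (x : laurentBaseChange Kb F₀) :
    ((galFunGen F₀ σ x : laurentBaseChange Kb F₀) : LaurentSeries Kb) =
      coeffMap ((σ : Kb ≃ₐ[ℚ] Kb) : Kb →+* Kb) (x : LaurentSeries Kb) :=
  rfl

/-- the semilinear automorphism `σ ∘ δ`. -/
def frobAsmTw (δ : laurentBaseChange Kb F₀ ≃ₐ[Kb] laurentBaseChange Kb F₀) (σ : GK) :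
    SemilinearAut Kb (laurentBaseChange Kb F₀) :=
  arithmeticGalois F₀ σ * SemilinearAut.ofAlgAut δ

theorem frobAsmTw_smul (δ : laurentBaseChange Kb F₀ ≃ₐ[Kb] laurentBaseChange Kb F₀) (σ : GK)
    (x : laurentBaseChange Kb F₀) : frobAsmTw δ σ • x = galFunGen F₀ σ (δ x) :=
  mul_smul _ _ _

/-! ### the twisted denominator -/

/-- `σ (δ x) · (σ⁻¹ x)^p`. -/
def frobAsmDen (δ : laurentBaseChange Kb F₀ ≃ₐ[Kb] laurentBaseChange Kb F₀) (p : ℕ) (σ : GK)
    (x : laurentBaseChange Kb F₀) : laurentBaseChange Kb F₀ :=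
  galFunGen F₀ σ (δ x) * galFunGen F₀ σ⁻¹ x ^ p

theorem frobAsm_mul_pow_comm {M : Type*} [CommMonoid M] (a b c d : M) (p : ℕ) :
    (a * b) * (c * d) ^ p = (a * c ^ p) * (b * d ^ p) := by
  rw [mul_pow]
  exact mul_mul_mul_comm a b (c ^ p) (d ^ p)

theorem frobAsmDen_mul (δ : laurentBaseChange Kb F₀ ≃ₐ[Kb] laurentBaseChange Kb F₀) (p : ℕ)
    (σ : GK) (x y : laurentBaseChange Kb F₀) :
    frobAsmDen δ p σ (x * y) = frobAsmDen δ p σ x * frobAsmDen δ p σ y := by
  unfold frobAsmDen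
  have e1 : δ (x * y) = δ x * δ y := map_mul δ x y
  rw [e1, frobAsm_gal_mul, frobAsm_gal_mul]
  exact frobAsm_mul_pow_comm _ _ _ _ p

theorem frobAsmDen_ne_zero (δ : laurentBaseChange Kb F₀ ≃ₐ[Kb] laurentBaseChange Kb F₀) (p : ℕ)
    (σ : GK) {x : laurentBaseChange Kb F₀} (hx : x ≠ 0) : frobAsmDen δ p σ x ≠ 0 := by
  unfold frobAsmDen
  have hδ : δ x ≠ 0 := fun h0 => hx (by
    have := congrArg δ.symm h0
    rwa [AlgEquiv.symm_apply_apply, map_zero] at this)
  exact mul_ne_zero (frobAsm_gal_ne_zero σ hδ) (pow_ne_zero _ (frobAsm_gal_ne_zero σ⁻¹ hx))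

theorem coe_frobAsmDen (δ : laurentBaseChange Kb F₀ ≃ₐ[Kb] laurentBaseChange Kb F₀) (p : ℕ)
    (σ : GK) (x : laurentBaseChange Kb F₀) :
    ((frobAsmDen δ p σ x : laurentBaseChange Kb F₀) : LaurentSeries Kb) =
      coeffMap ((σ : Kb ≃ₐ[ℚ] Kb) : Kb →+* Kb)
          ((δ x : laurentBaseChange Kb F₀) : LaurentSeries Kb) *
        coeffMap (((σ⁻¹ : GK) : Kb ≃ₐ[ℚ] Kb) : Kb →+* Kb) (x : LaurentSeries Kb) ^ p :=
  rfl

theorem frobAsmDen_algebraMap (δ : laurentBaseChange Kb F₀ ≃ₐ[Kb] laurentBaseChange Kb F₀)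
    (p : ℕ) (σ : GK) (c : Kb) :
    frobAsmDen δ p σ (algebraMap Kb (laurentBaseChange Kb F₀) c) =
      algebraMap Kb (laurentBaseChange Kb F₀) (σ c * (σ⁻¹ c) ^ p) := by
  unfold frobAsmDen
  have e1 : δ (algebraMap Kb (laurentBaseChange Kb F₀) c) =
      algebraMap Kb (laurentBaseChange Kb F₀) c := δ.commutes c
  rw [e1, frobAsm_gal_algebraMap, frobAsm_gal_algebraMap, map_mul, map_pow]

/-! ### presentations of `T w` and of the twisted denominator -/

section Pres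

variable (A : ValuationSubring Kb) (p : ℕ) [NeZero p] [Fact p.Prime]
  [CharP (IsLocalRing.ResidueField A) p]

/-- series with coefficients in `A` representing `T w`, for `w = Y₁ / Y₂`, `δ w = Z₁ / Z₂`. -/
theorem frobAsm_exists_hecke_series {h : F₀ ≤ F₁} {hF : ∀ y ∈ F₀, qExpand ℚ p y ∈ F₁}
    {δ : laurentBaseChange Kb F₀ ≃ₐ[Kb] laurentBaseChange Kb F₀}
    (hP : NormProductGen h p hF δ) (w : laurentBaseChange Kb F₀)
    (Y₁ Y₂ Z₁ Z₂ : LaurentSeries A)
    (hY : (w : LaurentSeries Kb) * emb A Y₂ = emb A Y₁)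
    (hZ : ((δ w : laurentBaseChange Kb F₀) : LaurentSeries Kb) * emb A Z₂ = emb A Z₁) :
    ∃ U₁ U₂ : LaurentSeries A,
      ((qSeriesHeckeFun h p hF w : laurentBaseChange Kb F₀) : LaurentSeries Kb) * emb A U₂ =
          emb A U₁ ∧
        red A U₁ = qExpand (IsLocalRing.ResidueField A) p (red A Y₁) *
          coeffMap (frobenius (IsLocalRing.ResidueField A) p) (red A Z₁) ∧
        red A U₂ = qExpand (IsLocalRing.ResidueField A) p (red A Y₂) *
          coeffMap (frobenius (IsLocalRing.ResidueField A) p) (red A Z₂) := by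
  obtain ⟨ζ, hζ, hprod⟩ := hP
  obtain ⟨W₁, hW₁, hW₁red⟩ := exists_kronecker_series A p ζ hζ Z₁
  obtain ⟨W₂, hW₂, hW₂red⟩ := exists_kronecker_series A p ζ hζ Z₂
  refine ⟨qExpand A p Y₁ * W₁, qExpand A p Y₂ * W₂, ?_, ?_, ?_⟩
  · apply qExpand_injective (R := Kb) p
    have e1 : qExpand Kb p (emb A (qExpand A p Y₁ * W₁)) =
        qExpand Kb (p * p) (emb A Y₁) * ∏ b ∈ Finset.range p, scaleL (ζ ^ b) (emb A Z₁) := by
      rw [map_mul, emb_qExpand, map_mul, qExpand_qExpand, hW₁]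
    have e2 : qExpand Kb p (emb A (qExpand A p Y₂ * W₂)) =
        qExpand Kb (p * p) (emb A Y₂) * ∏ b ∈ Finset.range p, scaleL (ζ ^ b) (emb A Z₂) := by
      rw [map_mul, emb_qExpand, map_mul, qExpand_qExpand, hW₂]
    rw [map_mul, hprod w, e1, e2, ← hY, ← hZ, map_mul]
    simp only [map_mul, Finset.prod_mul_distrib]
    ring
  · rw [map_mul, red_qExpand, hW₁red]
  · rw [map_mul, red_qExpand, hW₂red]

/-- series with coefficients in `A` representing `σ (δ w) (σ⁻¹ w)^p`, for `w = Y₁ / Y₂`,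
`δ w = Z₁ / Z₂`. -/
theorem frobAsm_exists_den_series {σ : GK} (hσ : A.IsFrobeniusAt σ p)
    (δ : laurentBaseChange Kb F₀ ≃ₐ[Kb] laurentBaseChange Kb F₀) (w : laurentBaseChange Kb F₀)
    (Y₁ Y₂ Z₁ Z₂ : LaurentSeries A)
    (hY : (w : LaurentSeries Kb) * emb A Y₂ = emb A Y₁)
    (hZ : ((δ w : laurentBaseChange Kb F₀) : LaurentSeries Kb) * emb A Z₂ = emb A Z₁) :
    ∃ V₁ V₂ : LaurentSeries A,
      ((frobAsmDen δ p σ w : laurentBaseChange Kb F₀) : LaurentSeries Kb) * emb A V₂ =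
          emb A V₁ ∧
        red A V₁ = coeffMap (frobenius (IsLocalRing.ResidueField A) p) (red A Z₁) *
          qExpand (IsLocalRing.ResidueField A) p (red A Y₁) ∧
        red A V₂ = coeffMap (frobenius (IsLocalRing.ResidueField A) p) (red A Z₂) *
          qExpand (IsLocalRing.ResidueField A) p (red A Y₂) := by
  obtain ⟨S₁, -, hS₁, -, hS₁red, -⟩ := exists_frob_series A p hσ Z₁
  obtain ⟨S₂, -, hS₂, -, hS₂red, -⟩ := exists_frob_series A p hσ Z₂
  obtain ⟨-, R₁, -, hR₁, -, hR₁red⟩ := exists_frob_series A p hσ Y₁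
  obtain ⟨-, R₂, -, hR₂, -, hR₂red⟩ := exists_frob_series A p hσ Y₂
  refine ⟨S₁ * R₁ ^ p, S₂ * R₂ ^ p, ?_, ?_, ?_⟩
  · rw [coe_frobAsmDen, map_mul, map_mul, map_pow, map_pow, hS₁, hS₂, hR₁, hR₂, ← hY, ← hZ,
      map_mul, map_mul]
    ring
  · rw [map_mul, hS₁red, hR₁red]
  · rw [map_mul, hS₂red, hR₂red]

/-- For a unit `w` of the Gauss ring, `Φ w = T w / (σ (δ w) · (σ⁻¹ w)^p)` lies in the Gauss
ring and has residue `1`. -/
theorem frobAsm_ratio_mem {h : F₀ ≤ F₁} {hF : ∀ y ∈ F₀, qExpand ℚ p y ∈ F₁}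
    {δ : laurentBaseChange Kb F₀ ≃ₐ[Kb] laurentBaseChange Kb F₀}
    (hp : p.Prime) (hA : A.LiesOverPrime p) (hInt : IsIntGen A F₀)
    (hP : NormProductGen h p hF δ) (hδ : GaussStable F₀ A δ) {σ : GK}
    (hσ : A.IsFrobeniusAt σ p) (w : laurentBaseChange Kb F₀)
    (hwmem : (w : LaurentSeries Kb) ∈ gaussSub A (laurentBaseChange Kb F₀))
    (hwres : gaussResFun A (laurentBaseChange Kb F₀) (w : LaurentSeries Kb) ≠ 0) :
    ((qSeriesHeckeFun h p hF w * (frobAsmDen δ p σ w)⁻¹ : laurentBaseChange Kb F₀) :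
        LaurentSeries Kb) ∈ gaussSub A (laurentBaseChange Kb F₀) ∧
      gaussResFun A (laurentBaseChange Kb F₀)
        ((qSeriesHeckeFun h p hF w * (frobAsmDen δ p σ w)⁻¹ : laurentBaseChange Kb F₀) :
          LaurentSeries Kb) = 1 := by
  have hw0 : w ≠ 0 := by
    rintro rfl
    apply hwres
    exact map_zero (gaussRes A (laurentBaseChange Kb F₀))
  -- `δ w` is a unit of the Gauss ring
  have hδw0 : δ w ≠ 0 := fun h0 => hw0 (by
    have := congrArg δ.symm h0
    rwa [AlgEquiv.symm_apply_apply, map_zero] at this)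
  have hδw := hδ w hwmem
  have hwinv : ((w⁻¹ : laurentBaseChange Kb F₀) : LaurentSeries Kb) ∈
      gaussSub A (laurentBaseChange Kb F₀) := inv_mem_gaussSub hwmem hwres
  have hδwinv := hδ w⁻¹ hwinv
  have e1 : δ w⁻¹ = (δ w)⁻¹ := map_inv₀ δ w
  rw [e1] at hδwinv
  have hδw0' : ((δ w : laurentBaseChange Kb F₀) : LaurentSeries Kb) ≠ 0 :=
    fun h0 => hδw0 (Subtype.ext h0)
  have hδres : gaussResFun A (laurentBaseChange Kb F₀)
      ((δ w : laurentBaseChange Kb F₀) : LaurentSeries Kb) ≠ 0 :=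
    frobAsm_res_ne_zero hδw hδwinv hδw0'
  obtain ⟨Y₁, Y₂, hY⟩ := hwmem
  obtain ⟨Z₁, Z₂, hZ⟩ := hδw
  have hY₁ : red A Y₁ ≠ 0 := by
    intro h0
    apply hwres
    rw [gaussResFun_eq hY, h0, zero_div]
  have hZ₁ : red A Z₁ ≠ 0 := by
    intro h0
    apply hδres
    rw [gaussResFun_eq hZ, h0, zero_div]
  obtain ⟨U₁, U₂, hU, hU₁, hU₂⟩ := frobAsm_exists_hecke_series A p hP w Y₁ Y₂ Z₁ Z₂ hY.eq hZ.eq
  obtain ⟨V₁, V₂, hV, hV₁, hV₂⟩ := frobAsm_exists_den_series A p hσ δ w Y₁ Y₂ Z₁ Z₂ hY.eq hZ.eq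
  have hD0 : frobAsmDen δ p σ w ≠ 0 := frobAsmDen_ne_zero δ p σ hw0
  have hD0' : ((frobAsmDen δ p σ w : laurentBaseChange Kb F₀) : LaurentSeries Kb) ≠ 0 :=
    fun h0 => hD0 (Subtype.ext h0)
  -- nonvanishing of the reductions
  have hq : ∀ Y : LaurentSeries (IsLocalRing.ResidueField A), Y ≠ 0 →
      qExpand (IsLocalRing.ResidueField A) p Y ≠ 0 := fun Y hY0 h0 =>
    hY0 (qExpand_injective (R := IsLocalRing.ResidueField A) p (by rw [h0, map_zero]))
  have hfr : ∀ Y : LaurentSeries (IsLocalRing.ResidueField A), Y ≠ 0 →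
      coeffMap (frobenius (IsLocalRing.ResidueField A) p) Y ≠ 0 := fun Y hY0 h0 =>
    hY0 (coeffMap_injective_of_injective _
      (frobenius (IsLocalRing.ResidueField A) p).injective (by rw [h0, map_zero]))
  have hne : red A (U₂ * V₁) ≠ 0 := by
    rw [map_mul, hU₂, hV₁]
    exact mul_ne_zero (mul_ne_zero (hq _ hY.prim) (hfr _ hZ.prim))
      (mul_ne_zero (hfr _ hZ₁) (hq _ hY₁))
  have hg : ((qSeriesHeckeFun h p hF w * (frobAsmDen δ p σ w)⁻¹ : laurentBaseChange Kb F₀) :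
      LaurentSeries Kb) * emb A (U₂ * V₁) = emb A (U₁ * V₂) := by
    have e2 : ((qSeriesHeckeFun h p hF w * (frobAsmDen δ p σ w)⁻¹ : laurentBaseChange Kb F₀) :
        LaurentSeries Kb) =
        ((qSeriesHeckeFun h p hF w : laurentBaseChange Kb F₀) : LaurentSeries Kb) *
          ((frobAsmDen δ p σ w : laurentBaseChange Kb F₀) : LaurentSeries Kb)⁻¹ := rfl
    rw [e2, map_mul, map_mul, ← hU, ← hV]
    field_simp
  obtain ⟨hmem, hres⟩ := frobAsm_genPres hp hA hInt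
    (qSeriesHeckeFun h p hF w * (frobAsmDen δ p σ w)⁻¹ : laurentBaseChange Kb F₀).2
    (U₁ * V₂) (U₂ * V₁) hg hne
  refine ⟨hmem, ?_⟩
  rw [hres, div_eq_one_iff_eq hne, map_mul, map_mul, hU₁, hU₂, hV₁, hV₂]
  ring

end Pres

/-! ### constants -/

/-- `T` of a constant is a constant. -/
theorem frobAsm_hecke_algebraMap (h : F₀ ≤ F₁) (p : ℕ) [NeZero p]
    (hF : ∀ y ∈ F₀, qExpand ℚ p y ∈ F₁) (c : Kb) :
    ∃ d : ℕ, qSeriesHeckeFun h p hF (algebraMap Kb (laurentBaseChange Kb F₀) c) =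
      algebraMap Kb (laurentBaseChange Kb F₀) (c ^ d) := by
  letI := algebraAlong (qSeriesAlpha Kb h)
  haveI := isScalarTower_along (qSeriesAlpha Kb h)
  refine ⟨Module.finrank (laurentBaseChange Kb F₀) (laurentBaseChange Kb F₁), ?_⟩
  have e1 : qSeriesHeckeFun h p hF (algebraMap Kb (laurentBaseChange Kb F₀) c) =
      Algebra.norm (laurentBaseChange Kb F₀)
        (qSeriesBeta Kb p hF (algebraMap Kb (laurentBaseChange Kb F₀) c)) := rfl
  rw [e1, AlgHom.commutes, map_pow]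
  have h1 : algebraMap Kb (laurentBaseChange Kb F₁) c =
      algebraMap (laurentBaseChange Kb F₀) (laurentBaseChange Kb F₁)
        (algebraMap Kb (laurentBaseChange Kb F₀) c) :=
    IsScalarTower.algebraMap_apply Kb (laurentBaseChange Kb F₀) _ c
  rw [h1]
  exact Algebra.norm_algebraMap (algebraMap Kb (laurentBaseChange Kb F₀) c)

theorem frobAsm_hecke_ne_zero {h : F₀ ≤ F₁} {p : ℕ} [NeZero p]
    {hF : ∀ y ∈ F₀, qExpand ℚ p y ∈ F₁} (hin : QSeriesInputs Kb h p hF)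
    {f : laurentBaseChange Kb F₀} (hf : f ≠ 0) : qSeriesHeckeFun h p hF f ≠ 0 := by
  obtain ⟨hα, hβ, hPD, hfin, hFI, hN⟩ := hin
  have hβf : qSeriesBeta Kb p hF f ≠ 0 := by
    intro h0
    apply hf
    exact (qSeriesBeta Kb p hF).toRingHom.injective (h0.trans (map_zero _).symm)
  exact normAlong_ne_zero _ hfin hβf

/-- the divisor of `T w` is divisible by `n` if the divisor of `w` is. -/
theorem frobAsm_hecke_dvd {h : F₀ ≤ F₁} {p : ℕ} [NeZero p]
    {hF : ∀ y ∈ F₀, qExpand ℚ p y ∈ F₁} (hin : QSeriesInputs Kb h p hF)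
    (D : Divisor Kb (laurentBaseChange Kb F₀)) (n : ℤ) {w : laurentBaseChange Kb F₀}
    (hw : w ≠ 0) (hD : ∀ v, n * D v = v.ord w) (v : Place Kb (laurentBaseChange Kb F₀)) :
    n ∣ v.ord (qSeriesHeckeFun h p hF w) := by
  obtain ⟨hα, hβ, hPD, hfin, hFI, hN⟩ := hin
  haveI := hPD
  have h1 := zsmul_correspondence_apply_eq_ord_norm (qSeriesBeta Kb p hF) (qSeriesAlpha Kb h)
    hβ hα hfin hN hw n hD v
  exact ⟨_, h1.symm⟩

/-- the divisor of `g • w` is divisible by `n` if the divisor of `w` is. -/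
theorem frobAsm_smul_dvd (g : SemilinearAut Kb (laurentBaseChange Kb F₀))
    (D : Divisor Kb (laurentBaseChange Kb F₀)) (n : ℤ) {w : laurentBaseChange Kb F₀}
    (hD : ∀ v, n * D v = v.ord w) (v : Place Kb (laurentBaseChange Kb F₀)) :
    n ∣ v.ord (g • w) :=
  ⟨_, (mul_smul_divisor_apply_eq_ord g n hD v).symm⟩

/-! ### the assembly -/

/-- **(P4, fixed exponent)** ASSEMBLY: the KEY LEMMA at the exponent `n ≠ 0`, the twisted
product formula for the norm (Kronecker), the stability of the Gauss ring under `δ` and the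
inputs of the norm correspondence give the function form of the twisted Eichler--Shimura
relation at the exponent `n`. -/
theorem frobPowGenAt_of_keyLemma {h : F₀ ≤ F₁} {p : ℕ} [NeZero p]
    {hF : ∀ y ∈ F₀, qExpand ℚ p y ∈ F₁}
    {δ : laurentBaseChange Kb F₀ ≃ₐ[Kb] laurentBaseChange Kb F₀} {A : ValuationSubring Kb}
    {n : ℕ} (hn : n ≠ 0) (hp : p.Prime) (hA : A.LiesOverPrime p) (hInt : IsIntGen A F₀)
    (hKL : KeyLemmaGenAt F₀ A n) (hP : NormProductGen h p hF δ) (hδ : GaussStable F₀ A δ)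
    (hin : QSeriesInputs Kb h p hF) : FrobPowGenAt h p hF δ A n := by
  intro σ hσ f hf D hD
  haveI : Fact p.Prime := ⟨hp⟩
  haveI : CharP (IsLocalRing.ResidueField A) p := charP_residue_of_liesOver A hp hA
  obtain ⟨c, hc0, hmem, hres⟩ := exists_const_mul_mem_gaussSub hp hA hInt f.2
    (fun h0 => hf (Subtype.ext h0))
  -- the normalised function `w = c f`
  set w : laurentBaseChange Kb F₀ := algebraMap Kb (laurentBaseChange Kb F₀) c * f with hw
  have hcF : algebraMap Kb (laurentBaseChange Kb F₀) c ≠ 0 := by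
    intro h0
    apply hc0
    exact (algebraMap Kb (laurentBaseChange Kb F₀)).injective (h0.trans (map_zero _).symm)
  have hw0 : w ≠ 0 := mul_ne_zero hcF hf
  have hwmem : (w : LaurentSeries Kb) ∈ gaussSub A (laurentBaseChange Kb F₀) := hmem
  have hwres : gaussResFun A (laurentBaseChange Kb F₀) (w : LaurentSeries Kb) ≠ 0 := hres
  -- `g = Φ w`
  obtain ⟨hgmem, hgres⟩ := frobAsm_ratio_mem A p hp hA hInt hP hδ hσ w hwmem hwres
  set g : laurentBaseChange Kb F₀ := qSeriesHeckeFun h p hF w * (frobAsmDen δ p σ w)⁻¹ with hg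
  have hTw0 : qSeriesHeckeFun h p hF w ≠ 0 := frobAsm_hecke_ne_zero hin hw0
  have hDw0 : frobAsmDen δ p σ w ≠ 0 := frobAsmDen_ne_zero δ p σ hw0
  have hg0 : g ≠ 0 := mul_ne_zero hTw0 (inv_ne_zero hDw0)
  -- divisibility of the divisor of `g`
  have hordw : ∀ v : Place Kb (laurentBaseChange Kb F₀), v.ord w = v.ord f := fun v => by
    rw [hw, v.ord_mul hcF hf, place_ord_algebraMap v hc0, zero_add]
  have hDw : ∀ v : Place Kb (laurentBaseChange Kb F₀),
      (n : ℤ) * (D : Divisor Kb (laurentBaseChange Kb F₀)) v = v.ord w := fun v => by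
    rw [hordw, hD]
  have hδw0 : δ w ≠ 0 := fun h0 => hw0 (by
    have := congrArg δ.symm h0
    rwa [AlgEquiv.symm_apply_apply, map_zero] at this)
  have hσw0 : galFunGen F₀ σ (δ w) ≠ 0 := frobAsm_gal_ne_zero σ hδw0
  have hσ'w0 : galFunGen F₀ σ⁻¹ w ≠ 0 := frobAsm_gal_ne_zero σ⁻¹ hw0
  have hdvd : ∀ P : Place Kb (laurentBaseChange Kb F₀), (n : ℤ) ∣ P.ord g := by
    intro P
    have h1 : (n : ℤ) ∣ P.ord (galFunGen F₀ σ (δ w)) := by
      have := frobAsm_smul_dvd (frobAsmTw δ σ) (D : Divisor Kb (laurentBaseChange Kb F₀))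
        (n : ℤ) hDw P
      rwa [frobAsmTw_smul] at this
    have h2 : (n : ℤ) ∣ P.ord (galFunGen F₀ σ⁻¹ w) :=
      frobAsm_smul_dvd (arithmeticGalois F₀ σ⁻¹) (D : Divisor Kb (laurentBaseChange Kb F₀))
        (n : ℤ) hDw P
    have h3 : P.ord (frobAsmDen δ p σ w) =
        P.ord (galFunGen F₀ σ (δ w)) + (p : ℤ) * P.ord (galFunGen F₀ σ⁻¹ w) := by
      unfold frobAsmDen
      rw [P.ord_mul hσw0 (pow_ne_zero _ hσ'w0), ← zpow_natCast, Place.ord_zpow]
    have h4 := frobAsm_hecke_dvd hin (D : Divisor Kb (laurentBaseChange Kb F₀)) (n : ℤ) hw0 hDw P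
    rw [hg, P.ord_mul hTw0 (inv_ne_zero hDw0), P.ord_inv, h3]
    exact dvd_add h4 (Dvd.dvd.neg_right (dvd_add h1 (Dvd.dvd.mul_left h2 _)))
  obtain ⟨k, hk⟩ := hKL g hg0 hdvd hgmem hgres
  have hk0 : k ≠ 0 := by
    rintro rfl
    rw [zero_pow hn] at hk
    exact hg0 hk.symm
  -- the constant factor
  obtain ⟨d, hd⟩ := frobAsm_hecke_algebraMap h p hF c
  have hσc0 : σ c ≠ 0 := by
    intro h0
    exact hc0 (σ.injective (h0.trans (map_zero σ).symm))
  have hσ'c0 : σ⁻¹ c ≠ 0 := by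
    intro h0
    exact hc0 ((σ⁻¹ : GK).injective (h0.trans (map_zero (σ⁻¹ : GK)).symm))
  have hm0 : σ c * (σ⁻¹ c) ^ p ≠ 0 := mul_ne_zero hσc0 (pow_ne_zero _ hσ'c0)
  obtain ⟨b, hb⟩ := IsAlgClosed.exists_pow_nat_eq (c ^ d / (σ c * (σ⁻¹ c) ^ p))
    (Nat.pos_of_ne_zero hn)
  -- `Φ w = Φ c · Φ f`
  have hTw : qSeriesHeckeFun h p hF w =
      algebraMap Kb (laurentBaseChange Kb F₀) (c ^ d) * qSeriesHeckeFun h p hF f := by
    rw [hw, map_mul, hd]
  have hDwf : frobAsmDen δ p σ w =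
      algebraMap Kb (laurentBaseChange Kb F₀) (σ c * (σ⁻¹ c) ^ p) * frobAsmDen δ p σ f := by
    rw [hw, frobAsmDen_mul, frobAsmDen_algebraMap]
  have hcdF : algebraMap Kb (laurentBaseChange Kb F₀) (c ^ d) ≠ 0 := by
    intro h0
    apply pow_ne_zero d hc0
    exact (algebraMap Kb (laurentBaseChange Kb F₀)).injective (h0.trans (map_zero _).symm)
  have hbpow : algebraMap Kb (laurentBaseChange Kb F₀) b ^ n *
      algebraMap Kb (laurentBaseChange Kb F₀) (σ c * (σ⁻¹ c) ^ p) =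
        algebraMap Kb (laurentBaseChange Kb F₀) (c ^ d) := by
    rw [← map_pow, hb, ← map_mul, div_mul_cancel₀ _ hm0]
  refine ⟨algebraMap Kb (laurentBaseChange Kb F₀) b * k⁻¹, ?_⟩
  show (algebraMap Kb (laurentBaseChange Kb F₀) b * k⁻¹) ^ n * qSeriesHeckeFun h p hF f =
    frobAsmDen δ p σ f
  have e1 : k ^ n * frobAsmDen δ p σ w = qSeriesHeckeFun h p hF w := by
    rw [hk, hg, mul_assoc, inv_mul_cancel₀ hDw0, mul_one]
  rw [hTw, hDwf] at e1
  have hkn : k ^ n ≠ 0 := pow_ne_zero n hk0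
  have e2 : algebraMap Kb (laurentBaseChange Kb F₀) (c ^ d) *
      (k ^ n * ((algebraMap Kb (laurentBaseChange Kb F₀) b * k⁻¹) ^ n *
        qSeriesHeckeFun h p hF f)) =
      algebraMap Kb (laurentBaseChange Kb F₀) (c ^ d) * (k ^ n * frobAsmDen δ p σ f) := by
    rw [mul_pow, inv_pow]
    calc algebraMap Kb (laurentBaseChange Kb F₀) (c ^ d) *
          (k ^ n * (algebraMap Kb (laurentBaseChange Kb F₀) b ^ n * (k ^ n)⁻¹ *
            qSeriesHeckeFun h p hF f))
        = algebraMap Kb (laurentBaseChange Kb F₀) b ^ n *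
            (algebraMap Kb (laurentBaseChange Kb F₀) (c ^ d) * qSeriesHeckeFun h p hF f) := by
          field_simp
      _ = algebraMap Kb (laurentBaseChange Kb F₀) b ^ n *
            (k ^ n * (algebraMap Kb (laurentBaseChange Kb F₀) (σ c * (σ⁻¹ c) ^ p) *
              frobAsmDen δ p σ f)) := by rw [e1]
      _ = (algebraMap Kb (laurentBaseChange Kb F₀) b ^ n *
            algebraMap Kb (laurentBaseChange Kb F₀) (σ c * (σ⁻¹ c) ^ p)) *
            (k ^ n * frobAsmDen δ p σ f) := by ring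
      _ = algebraMap Kb (laurentBaseChange Kb F₀) (c ^ d) * (k ^ n * frobAsmDen δ p σ f) := by
          rw [hbpow]
  exact mul_left_cancel₀ hkn (mul_left_cancel₀ hcdF e2)

/-- **(P4)** ASSEMBLY: the KEY LEMMA, the twisted product formula for the norm (Kronecker), the
stability of the Gauss ring under `δ` and the inputs of the norm correspondence give the
function form of the twisted Eichler--Shimura relation. -/
theorem frobPowGen_of_keyLemma {h : F₀ ≤ F₁} {p : ℕ} [NeZero p]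
    {hF : ∀ y ∈ F₀, qExpand ℚ p y ∈ F₁}
    {δ : laurentBaseChange Kb F₀ ≃ₐ[Kb] laurentBaseChange Kb F₀} {A : ValuationSubring Kb}
    (hp : p.Prime) (hA : A.LiesOverPrime p) (hInt : IsIntGen A F₀)
    (hKL : KeyLemmaGen F₀ p A) (hP : NormProductGen h p hF δ) (hδ : GaussStable F₀ A δ)
    (hin : QSeriesInputs Kb h p hF) : FrobPowGen h p hF δ A := by
  intro n hndvd
  have hn : n ≠ 0 := by
    rintro rfl
    exact hndvd (dvd_zero p)
  exact frobPowGenAt_of_keyLemma hn hp hA hInt (hKL n hndvd) hP hδ hin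

end Fermat.Agent.S48WPort
end
end MergeWrap_S48_W_G_Port_FrobAsm

section MergeWrap_S48_W_G_Port_Final -- from S48/W/G/Port/Final.lean

set_option autoImplicit false
set_option synthInstance.maxHeartbeats 400000
set_option linter.style.haveILetI false
set_option linter.unusedSectionVars false

noncomputable section

namespace Fermat.Agent.S48WPort

open ModularCurve AlgebraicCurve IntermediateField Fermat.Agent.GaussInt Fermat.Agent.S48W
  Fermat.Agent.S48WG

local notation "Kb" => AlgebraicClosure ℚ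
local notation "GK" => (AlgebraicClosure ℚ ≃ₐ[ℚ] AlgebraicClosure ℚ)

variable {M : ℕ} [NeZero M]

/-! ### the input of P5 at level `Γ₁(M)` -/

/-- **the base function input of P5**: at every place `A` over a prime `p ∤ M` there is a base
function `x` of the Gauss ring of `ℚ̄ F₁(M)`, fixed by all diamond automorphisms, with `x̄`
transcendental and `[F : ℚ̄(x)] ≤ [F_k : k(x̄)]`. -/
def DiamondBaseOne (M : ℕ) [NeZero M] : Prop :=
  ∀ (p : ℕ), p.Prime → ¬ p ∣ M → ∀ A : ValuationSubring Kb, A.LiesOverPrime p →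
    ∃ (x : LaurentSeries Kb) (hx : x ∈ gaussSub A (laurentBaseChange Kb (FOne M))),
      Transcendental (IsLocalRing.ResidueField A) (resElt hx) ∧
      FiniteDimensional Kb⟮barElt hx⟯ ↥(laurentBaseChange Kb (FOne M)) ∧
      Module.finrank Kb⟮barElt hx⟯ ↥(laurentBaseChange Kb (FOne M)) ≤
        Module.finrank (IsLocalRing.ResidueField A)⟮resElt hx⟯ ↥(resField A (FOne M)) ∧
      ∀ (d : (ZMod M)ˣ) (δ : FOneBar M ≃ₐ[Kb] FOneBar M), IsDiamond M d δ →
        δ (barElt hx) = barElt hx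

/-- the diamond automorphisms fix the functions `j(q^d)`, `d ∣ M`. -/
theorem final_isDiamond_barElt {d : (ZMod M)ˣ} {δ : FOneBar M ≃ₐ[Kb] FOneBar M}
    (hδ : IsDiamond M d δ) {A : ValuationSubring Kb} {y : LaurentSeries ℚ}
    (hy : y ∈ divisorExpansions M)
    (hx : coeffEmb Kb y ∈ gaussSub A (laurentBaseChange Kb (FOne M))) :
    δ (barElt hx) = barElt hx :=
  hδ.1 y hy (mem_of_mem_gaussSub hx)

/-- a base function `j(q^d)`, `d ∣ M`, at every place over `p ∤ M` gives the input of P5. -/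
theorem DiamondBaseOne.of_divisorExpansions
    (h : ∀ (p : ℕ), p.Prime → ¬ p ∣ M → ∀ A : ValuationSubring Kb, A.LiesOverPrime p →
      ∃ (y : LaurentSeries ℚ) (_ : y ∈ divisorExpansions M)
        (hx : coeffEmb Kb y ∈ gaussSub A (laurentBaseChange Kb (FOne M))),
        Transcendental (IsLocalRing.ResidueField A) (resElt hx) ∧
        FiniteDimensional Kb⟮barElt hx⟯ ↥(laurentBaseChange Kb (FOne M)) ∧
        Module.finrank Kb⟮barElt hx⟯ ↥(laurentBaseChange Kb (FOne M)) ≤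
          Module.finrank (IsLocalRing.ResidueField A)⟮resElt hx⟯ ↥(resField A (FOne M))) :
    DiamondBaseOne M := by
  intro p hp hpM A hA
  obtain ⟨y, hy, hx, htr, hfin, hdeg⟩ := h p hp hpM A hA
  exact ⟨coeffEmb Kb y, hx, htr, hfin, hdeg, fun d δ hδ => final_isDiamond_barElt hδ hy hx⟩

/-- **P5 at level `Γ₁(M)`**: the diamond automorphisms preserve the Gauss rings. -/
theorem diamondGaussOne_of_diamondBaseOne (h : DiamondBaseOne M) : DiamondGaussOne M := by
  intro p hp hpM A hA d δ hδ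
  obtain ⟨x, hx, htr, hfin, hdeg, hfix⟩ := h p hp hpM A hA
  exact gaussStable_of_baseFun hp hA (isIntGen_FOne A M) (resSurj A (FOne M)) hx htr hfin hdeg
    (hfix d δ hδ)

/-! ### P2 and P4 at level `Γ₁(M)` -/

/-- **P2 at `ℓ`**: the KEY LEMMA at the exponent `ℓ` from the deliverable of G-RED. -/
theorem keyLemmaOneAt_of_goodRedOne (h : GoodRedOne M) (ℓ : ℕ) : KeyLemmaOneAt M ℓ :=
  keyLemmaOneAt_of (keyLemmaAtOne_of_goodRedOne M h) ℓ

/-- **P4 at level `Γ₁(M)`, exponent `ℓ`**: the function form of the twisted Eichler-Shimura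
relation. -/
theorem frobPowOneAt_of_keyLemmaOneAt {ℓ : ℕ} (hℓ : ℓ.Prime) (hKL : KeyLemmaOneAt M ℓ)
    (hDG : DiamondGaussOne M) (hNP : NormProductOne M)
    (hin : ∀ p : Nat.Primes,
      (haveI : NeZero (p : ℕ) := ⟨p.2.ne_zero⟩; HeckeInputsOne M p)) :
    FrobPowOneAt M ℓ := by
  intro p _ hp hpM hpℓ δ hδ A hA
  have hpM' : ¬ p ∣ M := fun hd => hp.one_lt.ne' (Nat.Coprime.eq_one_of_dvd hpM hd)
  have hpMℓ : ¬ p ∣ M * ℓ := by
    intro hd
    rcases (Nat.Prime.dvd_mul hp).mp hd with h1 | h1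
    · exact hpM' h1
    · exact hpℓ ((Nat.prime_dvd_prime_iff_eq hp hℓ).mp h1)
  exact frobPowGenAt_of_keyLemma hℓ.ne_zero hp hA (isIntGen_FOne A M) (hKL p hp hpMℓ A hA)
    (hNP p hp hpM δ hδ) (hDG p hp hpM' A hA _ δ hδ) (hin ⟨p, hp⟩)

/-! ### the final wiring -/

/-- **G-PORT, final wiring at `ℓ`** (from the KEY LEMMA at the exponent `ℓ`). -/
theorem gPort_final {ℓ : ℕ} (hℓ : ℓ.Prime) (hKL : KeyLemmaOneAt M ℓ) (hB : DiamondBaseOne M)
    (hNP : NormProductOne M)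
    (hin : ∀ p : Nat.Primes,
      (haveI : NeZero (p : ℕ) := ⟨p.2.ne_zero⟩; HeckeInputsOne M p))
    (hdia : ∀ d : (ZMod M)ˣ, ∃ δ : FOneBar M ≃ₐ[Kb] FOneBar M, IsDiamond M d δ) :
    TorsionUnramifiedOneAt M ℓ ∧ TorsionFrobQuadraticOneAt M ℓ :=
  ⟨torsionUnramifiedOneAt_of_keyLemmaOneAt hℓ.ne_zero hKL,
    torsionFrobQuadraticOneAt_of_frobPowOneAt hℓ.ne_zero
      (frobPowOneAt_of_keyLemmaOneAt hℓ hKL (diamondGaussOne_of_diamondBaseOne hB) hNP hin)
      hin hdia⟩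

/-- **G-PORT, final wiring at `ℓ`** (from the deliverable `GoodRedOne M` of G-RED). -/
theorem gPort_final_of_goodRedOne {ℓ : ℕ} (hℓ : ℓ.Prime) (hGR : GoodRedOne M)
    (hB : DiamondBaseOne M) (hNP : NormProductOne M)
    (hin : ∀ p : Nat.Primes,
      (haveI : NeZero (p : ℕ) := ⟨p.2.ne_zero⟩; HeckeInputsOne M p))
    (hdia : ∀ d : (ZMod M)ˣ, ∃ δ : FOneBar M ≃ₐ[Kb] FOneBar M, IsDiamond M d δ) :
    TorsionUnramifiedOneAt M ℓ ∧ TorsionFrobQuadraticOneAt M ℓ :=
  gPort_final hℓ (keyLemmaOneAt_of_goodRedOne hGR ℓ) hB hNP hin hdia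

end Fermat.Agent.S48WPort
end
end MergeWrap_S48_W_G_Port_Final

section MergeWrap_S48_W_P_Final -- from S48/W/P/Final.lean

set_option autoImplicit false

noncomputable section

namespace Fermat.Agent.S48W

/-- **Block P**, unconditional. -/
theorem productEigenStatement : ProductEigenStatement :=
  productEigenStatement_of_eis1 Fermat.Agent.S48.Eis1.eis1Statement

/-- **Block P** (form `ProductEigen`), unconditional. -/
theorem productEigen : ProductEigen :=
  productEigen_of_eis1 Fermat.Agent.S48.Eis1.eis1Statement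

end Fermat.Agent.S48W
end
end MergeWrap_S48_W_P_Final

section MergeWrap_S48_W_Final -- from S48/W/Final.lean

set_option autoImplicit false
set_option synthInstance.maxHeartbeats 400000
set_option linter.style.haveILetI false
set_option linter.unusedSectionVars false

noncomputable section

namespace Fermat.Agent.S48WFinal

open ModularCurve AlgebraicCurve IntermediateField Fermat.Agent.GaussInt Fermat.Agent.S48W
  Fermat.Agent.S48WG Fermat.Agent.S48WPort

local notation "Kb" => AlgebraicClosure ℚ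

/-- `j(q^M)` over `ℚ̄` is the image of `j(q^M)` over `ℚ`. -/
theorem wf_coeffEmb_jqM (M : ℕ) [NeZero M] :
    coeffEmb Kb (qExpand ℚ M jq) = qExpand Kb M (jqModC Kb) := by
  rw [coeffEmb_qExpand_w, ← jqModC_rat]
  exact congrArg _ (map_jqModC (algebraMap ℚ Kb))

/-- the base function `j(q^M)` of G-IGUSA gives the input of P5. -/
theorem diamondBaseOne_of_igusa (hIg : IgusaOneStatement) (M : ℕ) [NeZero M] (hM : 2 ≤ M) :
    DiamondBaseOne M := by
  intro p hp hpM A hA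
  obtain ⟨x, hx, hxe, -, hfin, htr', -, -, hdeg⟩ := hIg M hM p hp hpM A hA
  refine ⟨x, hx, htr', hfin, hdeg, ?_⟩
  intro d δ hδ
  subst hxe
  have h := hδ.1 (qExpand ℚ M jq) (mem_divisorExpansions M dvd_rfl)
    (by rw [wf_coeffEmb_jqM]; exact mem_of_mem_gaussSub hx)
  apply Subtype.ext
  have h' := congrArg Subtype.val h
  simp only [wf_coeffEmb_jqM] at h'
  convert h' using 2
  all_goals rfl

/-- **G-PORT at the levels of the gluing**: (IF-G1) and (IF-G2) at `ℓ`, from the deliverables of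
G-IGUSA, G-RED/G-23 and Kronecker. -/
theorem gPort_of_leaves (hIg : IgusaOneStatement) (M : ℕ) [NeZero M] (hM : 2 ≤ M)
    (hGR : GoodRedOne M) (hNP : NormProductOne M) {ℓ : ℕ} (hℓ : ℓ.Prime) :
    TorsionUnramifiedOneAt M ℓ ∧ TorsionFrobQuadraticOneAt M ℓ :=
  gPort_final_of_goodRedOne hℓ hGR (diamondBaseOne_of_igusa hIg M hM) hNP
    (fun p => heckeInputsOne_primes M p) (diamondExistsOne M)

/-- **THE WALL, from the open leaves.** -/
theorem wallStatementFrom_of_leaves (hIg : IgusaOneStatement)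
    (hGR : ∀ (M : ℕ) [NeZero M], (4 ∣ M ∨ 9 ∣ M) → GoodRedOne M)
    (hNP : ∀ (M : ℕ) [NeZero M], (4 ∣ M ∨ 9 ∣ M) → NormProductOne M)
    (hE : ∀ (M : ℕ) [NeZero M] (ℓ : ℕ), ℓ.Prime → 5 ≤ ℓ → ℓ ∣ M → EigenclassOneAt M ℓ) :
    WallStatementFrom 5 := by
  have h2 : ∀ (M : ℕ) [NeZero M], (4 ∣ M ∨ 9 ∣ M) → 2 ≤ M := by
    intro M _ h
    have hM : 0 < M := Nat.pos_of_ne_zero (NeZero.ne M)
    rcases h with h | h
    · have := Nat.le_of_dvd hM h; omega
    · have := Nat.le_of_dvd hM h; omega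
  exact Fermat.Agent.S48WGlue.wallStatementFrom_of_at23' 5 productEigen
    (fun M _ ℓ hℓ _ _ h49 => (gPort_of_leaves hIg M (h2 M h49) (hGR M h49) (hNP M h49) hℓ).1)
    (fun M _ ℓ hℓ _ _ h49 => (gPort_of_leaves hIg M (h2 M h49) (hGR M h49) (hNP M h49) hℓ).2)
    (fun M _ _ => heckeGaloisCommOne_top M)
    hE

end Fermat.Agent.S48WFinal
end
end MergeWrap_S48_W_Final
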